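/-
TEAM CFT -> S55, layer [NUM] (helper55): Shapiro, Mackey, conjugation for `Hlc`, evaluation of the
numbers `dim Pⁱ(N_H)`, and the reduction of `Stmt_arith2` (Top/Inputs2.lean) to the deliverables of
[LOC] (`Local.Stmt_LN`), [GLOB-GN] (`GN.Stmt_GN`), [GLOB-GR], [GLOB-TW].

Definitions and statements-as-Props.  Each package proves `theorem xxx (deps) : Stmt_xxx` in its own
file `Fermat/Agent/CFT/Num/<Name>.lean`.
-/
import Fermat.Agent.CFT.Top.Inputs2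
import Fermat.Agent.CFT.Top.Tool
import Fermat.Agent.CFT.GN.Interface
import Fermat.Agent.CFT.Local.Tower

set_option autoImplicit false

noncomputable section

namespace Fermat.Agent.CFT.Num

open Fermat.Agent.CFT.Top Cpx Module ExtCitation

/-! ## Part A. Shapiro -/

section Shapiro

variable {k : Type} [CommRing k] {G : Type} [Group G]

/-- evaluation of `f : G/H → M` at the coset `gH` -/
def evAt (H : Subgroup G) (M : Rep.{0} k G) (g : G) : mapRep (G ⧸ H) M →ₗ[k] M :=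
  LinearMap.proj (g : G ⧸ H)

lemma evAt_apply (H : Subgroup G) (M : Rep.{0} k G) (g : G) (f : mapRep (G ⧸ H) M) :
    evAt H M g f = f (g : G ⧸ H) := rfl

lemma evAt_one_comm (H : Subgroup G) (M : Rep.{0} k G) (h : H) (f : mapRep (G ⧸ H) M) :
    evAt H M 1 ((mapRep (G ⧸ H) M).ρ (H.subtype h) f)
      = (Rep.res H.subtype M).ρ h (evAt H M 1 f) := by
  have h1 : ((H.subtype h)⁻¹ • ((1 : G) : G ⧸ H)) = ((1 : G) : G ⧸ H) := by
    rw [MulAction.Quotient.smul_coe, QuotientGroup.eq]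
    simp
  show M.ρ (H.subtype h) (f ((H.subtype h)⁻¹ • ((1 : G) : G ⧸ H))) = _
  rw [h1]
  rfl

/-- the Shapiro map `ev₁ ∘ res : C(G, Map(G/H, M)) → C(H, M)` -/
def shapM (𝒰 : LevelSys G) (H : Subgroup G) (M : Rep.{0} k G) :
    Cpx.Hom (lcCpx 𝒰 (mapRep (G ⧸ H) M)) (lcCpx (𝒰.sub H) (Rep.res H.subtype M)) :=
  lcMap H.subtype (𝒰.isCont_comap _) (evAt H M 1) (evAt_one_comm H M)

variable (k) in
/-- the Shapiro map for trivial coefficients `C(G, N_H) → C(H, k)` -/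
def shap (𝒰 : LevelSys G) (H : Subgroup G) :
    Cpx.Hom (lcCpx 𝒰 (permRep k H)) (lcCpx (𝒰.sub H) (Rep.trivial k H k)) :=
  lcMap H.subtype (𝒰.isCont_comap _) (M' := Rep.trivial k H k)
    (evAt H (Rep.trivial k G k) 1) (evAt_one_comm H (Rep.trivial k G k))

end Shapiro

/-- N1. **Shapiro's lemma for `Hlc`**, discrete coefficients, `H` open.
Proof by dimension shifting (induction on `n`, all `M` at once): `n = 0` by hand; for `n + 1` use
`0 → M → I → C → 0`, `I = mapRep (G ⧸ W) M`, `W` a level of the class, the two long exact sequences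
(`stmt_les`, `lcLin_isSES`, `stmt_deltaNat`), effacement `Stmt_efface` for `mapRep (G ⧸ H) M`
(+ the swap `Map(G/W, Map(G/H, M)) = Map(G/H, Map(G/W, M))`) and `Stmt_effaceSub` for `H`. -/
def Stmt_shapiroM : Prop :=
  ∀ (k : Type) [CommRing k] (G : Type) [Group G] (𝒰 : LevelSys G) (H : Subgroup G), 𝒰.IsOpen H →
    ∀ (M : Rep.{0} k G), IsDisc 𝒰 M → ∀ n, Function.Bijective ((shapM 𝒰 H M).mapH n)

/-- N1'. Shapiro for trivial coefficients. -/
def Stmt_shapiro : Prop :=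
  ∀ (k : Type) [CommRing k] (G : Type) [Group G] (𝒰 : LevelSys G) (H : Subgroup G), 𝒰.IsOpen H →
    ∀ n, Function.Bijective ((shap k 𝒰 H).mapH n)

/-! ## Part B. Mackey -/

section Mackey

variable {k : Type} [CommRing k] {G Γ : Type} [Group G] [Group Γ]

/-- `{γ ∈ Γ : g⁻¹ φ(γ) g ∈ H}` = the stabiliser of `gH` in `Γ`. -/
def stabAt (φ : Γ →* G) (H : Subgroup G) (g : G) : Subgroup Γ :=
  H.comap ((MulAut.conj g⁻¹).toMonoidHom.comp φ)

lemma mem_stabAt {φ : Γ →* G} {H : Subgroup G} {g : G} {γ : Γ} :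
    γ ∈ stabAt φ H g ↔ g⁻¹ * φ γ * g ∈ H := by
  simp [stabAt, Subgroup.mem_comap]

/-- `γ ↦ g⁻¹ φ(γ) g`, `stabAt φ H g → H`. -/
def conjHom (φ : Γ →* G) (H : Subgroup G) (g : G) : stabAt φ H g →* H :=
  (((MulAut.conj g⁻¹).toMonoidHom.comp φ).comp (stabAt φ H g).subtype).codRestrict H
    fun γ => γ.2

lemma conjHom_coe (φ : Γ →* G) (H : Subgroup G) (g : G) (γ : stabAt φ H g) :
    (conjHom φ H g γ : G) = g⁻¹ * φ γ * g := by
  simp [conjHom]

/-- the double cosets `φ(Γ) \ G / H` -/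
abbrev DC (φ : Γ →* G) (H : Subgroup G) : Type :=
  DoubleCoset.Quotient (φ.range : Set G) (H : Set G)

end Mackey

/-- N2a. openness / continuity facts. -/
def Stmt_stabOpen : Prop :=
  ∀ (G Γ : Type) [Group G] [Group Γ] (𝒰 : LevelSys G) (𝒱 : LevelSys Γ) (φ : Γ →* G),
    LevelSys.IsCont 𝒱 𝒰 φ → ∀ (H : Subgroup G), 𝒰.IsOpen H → ∀ g : G,
      𝒱.IsOpen (stabAt φ H g) ∧
      LevelSys.IsCont (𝒱.sub (stabAt φ H g)) (𝒰.sub H) (conjHom φ H g) ∧
      Finite (DC φ H)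

/-- N2b. **Mackey**: `Res_Γ N_H = ∏_{x ∈ φ(Γ)\G/H} N_{Stab(x)}`, on cohomology.
(`f ↦ (x ↦ (γ Stab ↦ f (φ(γ) x.out H)))` is an isomorphism of `Γ`-modules; `Hlc` commutes with
finite products of modules.) -/
def Stmt_mackey : Prop :=
  ∀ (k : Type) [CommRing k] (G Γ : Type) [Group G] [Group Γ] (𝒰 : LevelSys G) (𝒱 : LevelSys Γ)
    (φ : Γ →* G), LevelSys.IsCont 𝒱 𝒰 φ → ∀ (H : Subgroup G), 𝒰.IsOpen H → ∀ n : ℕ,
      Nonempty (Hlc 𝒱 (Rep.res φ (permRep k H)) n ≃ₗ[k]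
        ((x : DC φ H) → Hlc 𝒱 (permRep k (stabAt φ H (Quotient.out x))) n))

/-- N2c. orbit-stabiliser: `∑_x [Γ : Stab(x)] = [G : H]`. -/
def Stmt_orbitSum : Prop :=
  ∀ (G Γ : Type) [Group G] [Group Γ] (φ : Γ →* G) (H : Subgroup G), H.FiniteIndex →
    ∑ᶠ x : DC φ H, (stabAt φ H (Quotient.out x)).index = H.index

/-! ## Part C. conjugation, `Sha²` -/

section Conj

variable {k : Type} [CommRing k] {G : Type} [Group G]

lemma isCont_conj (𝒰 : LevelSys G) (g : G) :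
    LevelSys.IsCont 𝒰 𝒰 (MulAut.conj g⁻¹).toMonoidHom := by
  intro U hU
  refine ⟨U, hU, fun u hu => ?_⟩
  have := 𝒰.normal U hU
  simpa [Subgroup.mem_comap] using this.conj_mem u hu g⁻¹

/-- the action of `g` on cochains: `(g z)(a, b, …) = g z(g⁻¹ a g, g⁻¹ b g, …)`. -/
def conjAct (𝒰 : LevelSys G) (N : Rep.{0} k G) (g : G) : Cpx.Hom (lcCpx 𝒰 N) (lcCpx 𝒰 N) :=
  lcMap (MulAut.conj g⁻¹).toMonoidHom (isCont_conj 𝒰 g) (N.ρ g) (fun a m => by
    rw [← Module.End.mul_apply, ← map_mul, ← Module.End.mul_apply, ← map_mul]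
    congr 2
    simp [mul_assoc])

end Conj

/-- N3a. conjugation acts trivially on `H²`
(`g z - z = d w`, `w(a) = z(a, g) - z(g, g⁻¹ a g)` up to sign; use SCb `cls2`, `cls2_eq_zero_iff`). -/
def Stmt_conjTriv : Prop :=
  ∀ (k : Type) [CommRing k] (G : Type) [Group G] (𝒰 : LevelSys G) (N : Rep.{0} k G) (g : G)
    (x : Hlc 𝒰 N 2), (conjAct 𝒰 N g).mapH 2 x = x

/-- N3b. a class of `Sha²(N_H)` goes under Shapiro to a class of `H²(H, 𝔽_p)` which is trivial on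
all the local groups `stabAt (φ v) H g → H`, `γ ↦ g⁻¹ φ(γ) g`. -/
def Stmt_shaLocal : Prop :=
  ∀ (p : ℕ) [Fact p.Prime] (D : Datum p) (H : Subgroup D.G), D.𝒰.IsOpen H →
    ∀ x ∈ D.Sha (permRep (ZMod p) H) 2, ∀ (v : D.ι) (g : D.G)
      (hc : LevelSys.IsCont ((D.𝒰v v).sub (stabAt (D.φ v) H g)) (D.𝒰.sub H)
        (conjHom (D.φ v) H g)),
      (lcMap (conjHom (D.φ v) H g) hc (M := Rep.trivial (ZMod p) H (ZMod p))
        (M' := Rep.trivial (ZMod p) (stabAt (D.φ v) H g) (ZMod p)) LinearMap.id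
        (fun _ _ => rfl)).mapH 2 ((shap (ZMod p) D.𝒰 H).mapH 2 x) = 0

/-! ## Part D. the numbers `dim Pⁱ(N_H)` for an abstract datum -/

/-- the number of "places of `H` above `v`" -/
def nOrb {p : ℕ} [Fact p.Prime] (D : Datum p) (v : D.ι) (H : Subgroup D.G) : ℕ :=
  Nat.card (DC (D.φ v) H)

/-- N4. `dim P²(N_H) = s_H`, `dim P¹(N_H) = 2 s_H + (∑ ε_v) [G:H]`, from (LN) + Mackey. -/
def Stmt_pdim : Prop :=
  ∀ (p : ℕ) [Fact p.Prime] (D : Datum p) (ε : D.ι → ℕ), (∀ v, D.InLN v (ε v)) →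
    ∀ H : Subgroup D.G, D.Good H →
      Module.Finite (ZMod p) ((D.locCpx (permRep (ZMod p) H)).H 1) ∧
      Module.Finite (ZMod p) ((D.locCpx (permRep (ZMod p) H)).H 2) ∧
      D.pdim (permRep (ZMod p) H) 2 = ∑ v, nOrb D v H ∧
      D.pdim (permRep (ZMod p) H) 1 = 2 * ∑ v, nOrb D v H + (∑ v, ε v) * H.index

/-- N5. `H²(G,N)` is finite as soon as `Sha²(N)` and `P²(N)` are. -/
def Stmt_h2Finite : Prop :=
  ∀ (p : ℕ) [Fact p.Prime] (D : Datum p) (N : Rep.{0} (ZMod p) D.G),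
    Module.Finite (ZMod p) (D.Sha N 2) → Module.Finite (ZMod p) ((D.locCpx N).H 2) →
    Module.Finite (ZMod p) (Hlc D.𝒰 N 2)

/-! ## Part E. the concrete datum -/

/-- E1. (LN) for `qDatum`, from `Local.Stmt_LN` + Shapiro. -/
def Stmt_qLN : Prop :=
  ∀ (p : ℕ) [Fact p.Prime] (S : Finset Nat.Primes) (h : CycloTriv p S) (q : ↥S),
    (qDatum p S h).InLN q (if (q.1 : ℕ) = p then 1 else 0)

/-- E2. (LN3) for `qDatum` (ask [LOC]: `Stmt_towerKummer` + `Stmt_padicTower`). -/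
def Stmt_qLN3 : Prop :=
  ∀ (p : ℕ) [Fact p.Prime] (S : Finset Nat.Primes) (h : CycloTriv p S) (q : ↥S),
    (qDatum p S h).InLN3 q

/-- E3. a good subgroup of `qDatum` is `Gal(ℚ̄/k)` for a number field `k` as in `GN.Base`. -/
def Stmt_fieldOf : Prop :=
  ∀ (p : ℕ) [Fact p.Prime], p ≠ 2 → ∀ (S : Finset Nat.Primes), pPrime p ∈ S →
    ∀ (h : CycloTriv p S) (H : Subgroup GQ), (qDatum p S h).Good H →
      ∃ (k : GN.IF) (_ : NumberField k) (ζ : GN.Qb), k.fixingSubgroup = H ∧ GN.Base p S k ζ ∧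
        Module.finrank ℚ k = H.index

/-- E4. (DC) double cosets = primes: `∑_{q ∈ S} #(D_q \ G_ℚ / Gal(ℚ̄/k)) = #{primes of k over S}`. -/
def Stmt_DC : Prop :=
  ∀ (p : ℕ) [Fact p.Prime] (S : Finset Nat.Primes) (h : CycloTriv p S) (k : GN.IF)
    [NumberField k], ∑ q : ↥S, nOrb (qDatum p S h) q k.fixingSubgroup = (GN.TS S k).ncard

/-- E5. Shapiro maps `Sha²(N_H)` into helper56's `Sha2K`. -/
def Stmt_sha2K : Prop :=
  ∀ (p : ℕ) [Fact p.Prime] (S : Finset Nat.Primes) (h : CycloTriv p S) (k : GN.IF),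
    (levS S).IsOpen k.fixingSubgroup →
    ∀ x ∈ (qDatum p S h).Sha (permRep (ZMod p) k.fixingSubgroup) 2,
      (shap (ZMod p) (levS S) k.fixingSubgroup).mapH 2 x ∈ GN.Sha2K p S k

/-- E6. **deliverable of [GLOB-TW]**: (TW) in terms of double cosets. -/
def Stmt_TWorb : Prop :=
  ∀ (p : ℕ) [Fact p.Prime], p ≠ 2 → ∀ (S : Finset Nat.Primes), pPrime p ∈ S →
    ∀ (h : CycloTriv p S) (H : Subgroup GQ), (qDatum p S h).Good H →
      ∃ W : Subgroup GQ, (levS S).IsOpen W ∧ W ≤ H ∧ (W.subgroupOf H).Normal ∧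
        (∃ m : ℕ, W.relIndex H = p ^ m) ∧
        2 * ∑ q : ↥S, nOrb (qDatum p S h) q W < W.relIndex H + 2

/-- E7. **deliverable of [GLOB-GR]**: weak reciprocity for `qDatum`. -/
def Stmt_qGR : Prop :=
  ∀ (p : ℕ) [Fact p.Prime], p ≠ 2 → ∀ (S : Finset Nat.Primes), pPrime p ∈ S →
    ∀ h : CycloTriv p S, (qDatum p S h).InGRw

/-- E8. **assembly of all the arithmetic.**  (`GN.Stmt_K3f` is only used for `[k:ℚ]` even.) -/
def Stmt_arithAssembly : Prop :=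
  Stmt_shapiro → Stmt_pdim → Stmt_h2Finite → Stmt_qLN → Stmt_qLN3 → Stmt_fieldOf → Stmt_DC →
    Stmt_sha2K → Stmt_TWorb → Stmt_qGR → GN.Stmt_GN → GN.Stmt_K3f → Stmt_arith2

end Fermat.Agent.CFT.Num

end
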