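/-
TEAM CFT -> S55, layer [NUM], NUM-12: double cosets `D_q \ G_ℚ / Gal(ℚ̄/k)` = primes of `k` over `q`.
-/
import Fermat.Agent.CFT.Num.Interface
import Fermat.Agent.CFT.ShaBridge

set_option autoImplicit false

noncomputable section

namespace Fermat.Agent.CFT.Num

open Fermat.Agent.CFT.Top ExtCitation IsDedekindDomain NumberField
open Fermat.Agent.CFT.GN (Qb IF Over TS)
open scoped Pointwise

/-- `g⁻¹ A`. -/
def DC_tw (A : ValuationSubring Qb) (g : GQ) : ValuationSubring Qb :=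
  A.comap ((g : Qb ≃ₐ[ℚ] Qb) : Qb →+* Qb)

theorem DC_mem_tw {A : ValuationSubring Qb} {g : GQ} {x : Qb} : x ∈ DC_tw A g ↔ g x ∈ A :=
  Iff.rfl

theorem DC_mem_nonunits_tw {A : ValuationSubring Qb} {g : GQ} {x : Qb} :
    x ∈ (DC_tw A g).nonunits ↔ g x ∈ A.nonunits := by
  rw [ValuationSubring.mem_nonunits_iff_or, ValuationSubring.mem_nonunits_iff_or, DC_mem_tw,
    map_inv₀, map_eq_zero_iff g g.injective]

theorem DC_mem_decomp_iff (A : ValuationSubring Qb) (a : GQ) :
    a ∈ A.decompositionSubgroup ℚ ↔ ∀ x : Qb, a x ∈ A ↔ x ∈ A := by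
  rw [MulAction.mem_stabilizer_iff]
  constructor
  · intro h x
    have h1 : a • x ∈ a • A ↔ x ∈ A := ValuationSubring.smul_mem_pointwise_smul_iff
    rw [h] at h1
    exact h1
  · intro h
    ext y
    rw [ValuationSubring.mem_pointwise_smul_iff_inv_smul_mem, ← h (a⁻¹ • y)]
    have : a (a⁻¹ • y) = y := by
      change a (a⁻¹ y) = y
      rw [← AlgEquiv.mul_apply, mul_inv_cancel, AlgEquiv.one_apply]
    rw [this]

theorem DC_over_unique {k : IF} [NumberField k] {A : ValuationSubring Qb}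
    {v v' : HeightOneSpectrum (𝓞 k)} (h : Over A v) (h' : Over A v') : v = v' := by
  apply HeightOneSpectrum.ext
  ext x
  rw [h x, h' x]

theorem DC_int_mem_nonunits_iff {A : ValuationSubring Qb} {q : ℕ} (hq : q.Prime)
    (hA : A.LiesOverPrime q) (n : ℤ) : (n : Qb) ∈ A.nonunits ↔ (q : ℤ) ∣ n := by
  have h1 : A.valuation (q : Qb) < 1 := (ValuationSubring.mem_nonunits_iff A).1 hA
  have hint : ∀ m : ℤ, A.valuation ((m : ℤ) : Qb) ≤ 1 := fun m =>
    (A.valuation_le_one_iff _).2 (intCast_mem A m)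
  constructor
  · intro hn
    by_contra hnd
    have hcop : IsCoprime (q : ℤ) n :=
      ((Nat.prime_iff_prime_int.1 hq).coprime_iff_not_dvd).2 hnd
    obtain ⟨x, y, hxy⟩ := hcop
    have h2 : A.valuation (n : Qb) < 1 := (ValuationSubring.mem_nonunits_iff A).1 hn
    have e : (1 : Qb) = (x : Qb) * (q : Qb) + (y : Qb) * (n : Qb) := by
      have := congrArg (fun z : ℤ => (z : Qb)) hxy
      push_cast at this
      exact this.symm
    have h3 : A.valuation (1 : Qb) < 1 := by
      rw [e]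
      apply Valuation.map_add_lt
      · rw [map_mul]
        exact lt_of_le_of_lt (mul_le_of_le_one_left' (hint x)) h1
      · rw [map_mul]
        exact lt_of_le_of_lt (mul_le_of_le_one_left' (hint y)) h2
    simp at h3
  · rintro ⟨m, rfl⟩
    rw [ValuationSubring.mem_nonunits_iff]
    push_cast
    rw [map_mul]
    exact lt_of_le_of_lt (mul_le_of_le_one_right' (hint m)) h1

/-- `G_ℚ` permutes transitively the valuation subrings over `q`. -/
theorem DC_transitive (hA : GN.Stmt_DictA) (hD : GN.Stmt_DictD) {q : ℕ} (hq : q.Prime)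
    {A A' : ValuationSubring Qb} (h : A.LiesOverPrime q) (h' : A'.LiesOverPrime q) :
    ∃ g : GQ, ∀ x : Qb, g x ∈ A' ↔ x ∈ A := by
  have : NumberField (⊥ : IF) := ⟨⟩
  obtain ⟨v, hv⟩ := (hA ⊥).2.1 A q hq h
  obtain ⟨v', hv'⟩ := (hA ⊥).2.1 A' q hq h'
  have hvv : v = v' := by
    apply HeightOneSpectrum.ext
    ext x
    rw [hv x, hv' x]
    obtain ⟨r, hr⟩ := IntermediateField.mem_bot.1 (x : (⊥ : IF)).2
    have hint : IsIntegral ℤ (((x : (⊥ : IF)) : Qb)) := by
      have h1 : IsIntegral ℤ (x : (⊥ : IF)) := x.2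
      exact h1.map (algebraMap (⊥ : IF) Qb).toIntAlgHom
    rw [← hr] at hint ⊢
    have h2 : IsIntegral ℤ r := (isIntegral_algebraMap_iff (algebraMap ℚ Qb).injective).1 hint
    obtain ⟨n, rfl⟩ := IsIntegrallyClosed.isIntegral_iff.1 h2
    have e : algebraMap ℚ Qb (algebraMap ℤ ℚ n) = (n : Qb) := by simp
    rw [e, DC_int_mem_nonunits_iff hq h, DC_int_mem_nonunits_iff hq h']
  subst hvv
  obtain ⟨g, -, hg⟩ := hD ⊥ A A' v hv hv'
  exact ⟨g, hg⟩

theorem DC_over_tw_of_mem {k : IF} [NumberField k] {A : ValuationSubring Qb}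
    {v : HeightOneSpectrum (𝓞 k)} {b : GQ} (hb : b ∈ k.fixingSubgroup) :
    Over (DC_tw A b) v ↔ Over A v := by
  have hfix : ∀ x : 𝓞 k, b (((x : k) : Qb)) = ((x : k) : Qb) := fun x =>
    (IntermediateField.mem_fixingSubgroup_iff k b).1 hb _ (x : k).2
  constructor
  · intro h x
    rw [h x, DC_mem_nonunits_tw, hfix]
  · intro h x
    rw [h x, DC_mem_nonunits_tw, hfix]

theorem DC_tw_mul (A : ValuationSubring Qb) (g g' : GQ) :
    DC_tw A (g * g') = DC_tw (DC_tw A g) g' := by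
  ext x
  rw [DC_mem_tw, DC_mem_tw, DC_mem_tw, AlgEquiv.mul_apply]

theorem DC_tw_of_mem_decomp {A : ValuationSubring Qb} {a : GQ}
    (ha : a ∈ A.decompositionSubgroup ℚ) : DC_tw A a = A := by
  ext x
  rw [DC_mem_tw]
  exact (DC_mem_decomp_iff A a).1 ha x

theorem DC_tw_liesOver {A : ValuationSubring Qb} {q : ℕ} (h : A.LiesOverPrime q) (g : GQ) :
    (DC_tw A g).LiesOverPrime q := by
  unfold ValuationSubring.LiesOverPrime
  rw [DC_mem_nonunits_tw, map_natCast]
  exact h

theorem DC_primeLocalPlace_liesOver (q : Nat.Primes) :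
    (primeLocalPlace q).LiesOverPrime (q : ℕ) := by
  let _ : Fact (q : ℕ).Prime := ⟨q.2⟩
  exact padicPlace_liesOverPrime (q : ℕ)

/-- the primes of `k` over `q` -/
def DC_T (k : IF) [NumberField k] (q : Nat.Primes) : Set (HeightOneSpectrum (𝓞 k)) :=
  {v | ((q : ℕ) : 𝓞 k) ∈ v.asIdeal}

theorem DC_mem_T_of_over {k : IF} [NumberField k] {q : Nat.Primes} {A : ValuationSubring Qb}
    (hA : A.LiesOverPrime (q : ℕ)) {v : HeightOneSpectrum (𝓞 k)} (hv : Over A v) :
    v ∈ DC_T k q := by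
  change ((q : ℕ) : 𝓞 k) ∈ v.asIdeal
  rw [hv]
  have : (((((q : ℕ) : 𝓞 k) : k)) : Qb) = ((q : ℕ) : Qb) := by simp
  rw [this]
  exact hA

theorem DC_liesOver_of_mem_T {k : IF} [NumberField k] {q : Nat.Primes} {A : ValuationSubring Qb}
    {v : HeightOneSpectrum (𝓞 k)} (hv : Over A v) (hq : v ∈ DC_T k q) :
    A.LiesOverPrime (q : ℕ) := by
  have h1 := (hv _).1 hq
  have : (((((q : ℕ) : 𝓞 k) : k)) : Qb) = ((q : ℕ) : Qb) := by simp
  rw [this] at h1
  exact h1

/-- the number of double cosets is the number of primes over `q`. -/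
theorem DC_card (hA : GN.Stmt_DictA) (hD : GN.Stmt_DictD) (k : IF) [NumberField k]
    (q : Nat.Primes) :
    Nat.card (DC (primeLocalToGlobal q) k.fixingSubgroup) = Nat.card (DC_T k q) := by
  classical
  set A := primeLocalPlace q with hAdef
  have hAq : A.LiesOverPrime (q : ℕ) := DC_primeLocalPlace_liesOver q
  have hex : ∀ g : GQ, ∃ v : HeightOneSpectrum (𝓞 k), Over (DC_tw A g) v := fun g =>
    (hA k).2.1 _ q q.2 (DC_tw_liesOver hAq g)
  choose vOf hvOf using hex
  have hrange : (primeLocalToGlobal q).range = A.decompositionSubgroup ℚ :=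
    range_primeLocalToGlobal q
  have hwd : ∀ x y : GQ,
      (DoubleCoset.setoid ((primeLocalToGlobal q).range : Set GQ) (k.fixingSubgroup : Set GQ)) x y →
      (⟨vOf x, DC_mem_T_of_over (DC_tw_liesOver hAq x) (hvOf x)⟩ : DC_T k q) =
        ⟨vOf y, DC_mem_T_of_over (DC_tw_liesOver hAq y) (hvOf y)⟩ := by
    intro x y hxy
    obtain ⟨a, ha, b, hb, rfl⟩ := DoubleCoset.rel_iff.1 hxy
    rw [hrange] at ha
    apply Subtype.ext
    have h1 := hvOf (a * x * b)
    rw [DC_tw_mul, DC_tw_mul, DC_tw_of_mem_decomp ha, DC_over_tw_of_mem hb] at h1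
    exact DC_over_unique (hvOf x) h1
  let f : DC (primeLocalToGlobal q) k.fixingSubgroup → DC_T k q :=
    Quotient.lift (fun g => (⟨vOf g, DC_mem_T_of_over (DC_tw_liesOver hAq g) (hvOf g)⟩ : DC_T k q))
      hwd
  have hf : Function.Bijective f := by
    constructor
    · intro X Y
      induction X using Quotient.inductionOn with | _ x => ?_
      induction Y using Quotient.inductionOn with | _ y => ?_
      intro hxy
      have hxy' : vOf x = vOf y := congrArg Subtype.val hxy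
      apply Quotient.sound
      apply DoubleCoset.rel_iff.2
      have h1 := hvOf x
      have h2 := hvOf y
      rw [hxy'] at h1
      obtain ⟨g, hg, hgx⟩ := hD k _ _ _ h1 h2
      -- `y g x⁻¹` is in the decomposition group
      refine ⟨y * g * x⁻¹, ?_, g⁻¹, inv_mem hg, by group⟩
      rw [hrange, DC_mem_decomp_iff]
      intro z
      have h3 := hgx (x⁻¹ z)
      rw [DC_mem_tw, DC_mem_tw] at h3
      have e1 : (y * g * x⁻¹) z = y (g (x⁻¹ z)) := rfl
      have e2 : x (x⁻¹ z) = z := by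
        rw [← AlgEquiv.mul_apply, mul_inv_cancel, AlgEquiv.one_apply]
      rw [e1, h3, e2]
    · rintro ⟨v, hv⟩
      obtain ⟨A', hA'⟩ := (hA k).1 v
      have hA'q : A'.LiesOverPrime (q : ℕ) := DC_liesOver_of_mem_T hA' hv
      obtain ⟨g, hg⟩ := DC_transitive hA hD q.2 hA'q hAq
      refine ⟨Quotient.mk _ g, ?_⟩
      apply Subtype.ext
      have e : DC_tw A g = A' := by
        ext x
        rw [DC_mem_tw]
        exact hg x
      have h1 := hvOf g
      rw [e] at h1
      exact DC_over_unique h1 hA'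
  exact Nat.card_congr (Equiv.ofBijective f hf)

theorem DC_prime_unique {k : IF} [NumberField k] {v : HeightOneSpectrum (𝓞 k)} {q q' : Nat.Primes}
    (h : v ∈ DC_T k q) (h' : v ∈ DC_T k q') : q = q' := by
  by_contra hne
  have hne' : (q : ℕ) ≠ (q' : ℕ) := fun e => hne (Subtype.ext e)
  have hcop : Nat.Coprime q q' := (Nat.coprime_primes q.2 q'.2).2 hne'
  obtain ⟨x, y, hxy⟩ := Nat.isCoprime_iff_coprime.2 hcop
  have e : (1 : 𝓞 k) = (x : 𝓞 k) * ((q : ℕ) : 𝓞 k) + (y : 𝓞 k) * ((q' : ℕ) : 𝓞 k) := by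
    have := congrArg (fun z : ℤ => (z : 𝓞 k)) hxy
    push_cast at this
    exact this.symm
  have h1 : (1 : 𝓞 k) ∈ v.asIdeal := by
    rw [e]
    exact add_mem (Ideal.mul_mem_left _ _ h) (Ideal.mul_mem_left _ _ h')
  exact v.isPrime.ne_top ((Ideal.eq_top_iff_one _).2 h1)

theorem dc (hA : GN.Stmt_DictA) (hD : GN.Stmt_DictD) : Stmt_DC := by
  intro p _ S h k _
  classical
  have hfin : (TS S k).Finite := (hA k).2.2.2 S
  have hsub : ∀ q : ↥S, DC_T k q.1 ⊆ TS S k := fun q v hv => ⟨q.1, q.2, hv⟩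
  have hfinq : ∀ q : ↥S, Finite (DC_T k q.1) := fun q => (hfin.subset (hsub q)).to_subtype
  have h1 : ∀ q : ↥S, nOrb (qDatum p S h) q k.fixingSubgroup = Nat.card (DC_T k q.1) := fun q =>
    DC_card hA hD k q.1
  rw [Finset.sum_congr rfl (fun q _ => h1 q), ← Nat.card_sigma, ← _root_.Nat.card_coe_set_eq]
  let e : (Σ q : ↥S, DC_T k q.1) → TS S k := fun x => ⟨x.2.1, hsub x.1 x.2.2⟩
  have he : Function.Bijective e := by
    constructor
    · rintro ⟨q, v, hv⟩ ⟨q', v', hv'⟩ hxy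
      have hvv : v = v' := congrArg Subtype.val hxy
      subst hvv
      have hqq : q = q' := Subtype.ext (DC_prime_unique hv hv')
      subst hqq
      rfl
    · rintro ⟨v, q, hq, hv⟩
      exact ⟨⟨⟨q, hq⟩, v, hv⟩, rfl⟩
  exact Nat.card_congr (Equiv.ofBijective e he)

end Fermat.Agent.CFT.Num

end
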