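/-
TEAM CFT -> S55, layer [NUM], NUM-14 (helper50): assembly of the arithmetic.
-/
import Fermat.Agent.CFT.Num.Interface

set_option autoImplicit false

noncomputable section

namespace Fermat.Agent.CFT.Num

open Fermat.Agent.CFT.Top Cpx Module ExtCitation

/-- the numerics (GF), (GN+), (GN-) for one good subgroup of an abstract datum. -/
theorem assembly_abstract {p : ℕ} [Fact p.Prime] (D : Datum p) (hSh : Stmt_shapiro)
    (hPd : Stmt_pdim) (hH2 : Stmt_h2Finite) (ε : D.ι → ℕ) (hLN : ∀ v, D.InLN v (ε v))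
    (H : Subgroup D.G) (hH : D.Good H)
    (Sh : Submodule (ZMod p) (Hlc (D.𝒰.sub H) (Rep.trivial (ZMod p) H (ZMod p)) 2))
    (hmem : ∀ x ∈ D.Sha (permRep (ZMod p) H) 2, (shap (ZMod p) D.𝒰 H).mapH 2 x ∈ Sh)
    (s n2 : ℕ) (hs : ∑ v, nOrb D v H = s) (hn : (∑ v, ε v) * H.index = 2 * n2)
    (hfin1 : Module.Finite (ZMod p) (Hlc (D.𝒰.sub H) (Rep.trivial (ZMod p) H (ZMod p)) 1))
    (hfinS : Module.Finite (ZMod p) Sh)
    (hplus : finrank (ZMod p) Sh + (n2 + s) ≤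
      finrank (ZMod p) (Hlc (D.𝒰.sub H) (Rep.trivial (ZMod p) H (ZMod p)) 1))
    (hminus : Module.Finite (ZMod p) (Hlc (D.𝒰.sub H) (Rep.trivial (ZMod p) H (ZMod p)) 2) →
      finrank (ZMod p) (Hlc (D.𝒰.sub H) (Rep.trivial (ZMod p) H (ZMod p)) 1) ≤
        finrank (ZMod p) (Hlc (D.𝒰.sub H) (Rep.trivial (ZMod p) H (ZMod p)) 2) + (n2 + s)) :
    (Module.Finite (ZMod p) (Hlc D.𝒰 (permRep (ZMod p) H) 1) ∧
      Module.Finite (ZMod p) (Hlc D.𝒰 (permRep (ZMod p) H) 2)) ∧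
    2 * D.shadim (permRep (ZMod p) H) 2 + D.pdim (permRep (ZMod p) H) 1
      ≤ 2 * D.hdim (permRep (ZMod p) H) 1 ∧
    2 * D.hdim (permRep (ZMod p) H) 1
      ≤ 2 * D.hdim (permRep (ZMod p) H) 2 + D.pdim (permRep (ZMod p) H) 1 := by
  have e : ∀ i, Hlc D.𝒰 (permRep (ZMod p) H) i ≃ₗ[ZMod p]
      Hlc (D.𝒰.sub H) (Rep.trivial (ZMod p) H (ZMod p)) i := fun i =>
    LinearEquiv.ofBijective ((shap (ZMod p) D.𝒰 H).mapH i) (hSh (ZMod p) D.G D.𝒰 H hH.1 i)
  obtain ⟨-, hP2, -, hp1⟩ := hPd p D ε hLN H hH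
  -- `Sha²`
  let j : D.Sha (permRep (ZMod p) H) 2 →ₗ[ZMod p] Sh :=
    (((shap (ZMod p) D.𝒰 H).mapH 2).domRestrict (D.Sha (permRep (ZMod p) H) 2)).codRestrict Sh
      (fun x => hmem x.1 x.2)
  have hj : Function.Injective j := by
    intro x y hxy
    have h1 : (shap (ZMod p) D.𝒰 H).mapH 2 x.1 = (shap (ZMod p) D.𝒰 H).mapH 2 y.1 :=
      congrArg Subtype.val hxy
    exact Subtype.ext ((hSh (ZMod p) D.G D.𝒰 H hH.1 2).1 h1)
  have hfinSha : Module.Finite (ZMod p) (D.Sha (permRep (ZMod p) H) 2) :=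
    Module.Finite.of_injective j hj
  have hsha : D.shadim (permRep (ZMod p) H) 2 ≤ finrank (ZMod p) Sh :=
    LinearMap.finrank_le_finrank_of_injective hj
  have hf1 : Module.Finite (ZMod p) (Hlc D.𝒰 (permRep (ZMod p) H) 1) :=
    Module.Finite.equiv (e 1).symm
  have hf2 : Module.Finite (ZMod p) (Hlc D.𝒰 (permRep (ZMod p) H) 2) :=
    hH2 p D _ hfinSha hP2
  have hf2' : Module.Finite (ZMod p) (Hlc (D.𝒰.sub H) (Rep.trivial (ZMod p) H (ZMod p)) 2) :=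
    Module.Finite.equiv (e 2)
  have h1 : D.hdim (permRep (ZMod p) H) 1 =
      finrank (ZMod p) (Hlc (D.𝒰.sub H) (Rep.trivial (ZMod p) H (ZMod p)) 1) := (e 1).finrank_eq
  have h2 : D.hdim (permRep (ZMod p) H) 2 =
      finrank (ZMod p) (Hlc (D.𝒰.sub H) (Rep.trivial (ZMod p) H (ZMod p)) 2) := (e 2).finrank_eq
  have hm := hminus hf2'
  rw [hs, hn] at hp1
  refine ⟨⟨hf1, hf2⟩, ?_, ?_⟩
  · rw [hp1, h1]
    omega
  · rw [hp1, h1, h2]
    omega

/-- (TW) for an abstract datum, from its double coset form. -/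
theorem assembly_tw {p : ℕ} [Fact p.Prime] (D : Datum p) (hPd : Stmt_pdim) (ε : D.ι → ℕ)
    (hLN : ∀ v, D.InLN v (ε v)) (H : Subgroup D.G) (hH : D.Good H)
    (hW : ∃ W : Subgroup D.G, D.𝒰.IsOpen W ∧ W ≤ H ∧ (W.subgroupOf H).Normal ∧
      (∃ m : ℕ, W.relIndex H = p ^ m) ∧ 2 * ∑ v, nOrb D v W < W.relIndex H + 2) :
    ∃ W : Subgroup D.G, D.𝒰.IsOpen W ∧ W ≤ H ∧ (W.subgroupOf H).Normal ∧
      (∃ m : ℕ, W.relIndex H = p ^ m) ∧
      2 * D.pdim (permRep (ZMod p) W) 2 < W.relIndex H + 2 := by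
  obtain ⟨W, h1, h2, h3, h4, h5⟩ := hW
  refine ⟨W, h1, h2, h3, h4, ?_⟩
  obtain ⟨-, -, hp2, -⟩ := hPd p D ε hLN W ⟨h1, fun w hw => hH.2 w (h2 hw)⟩
  rw [hp2]
  exact h5

theorem assembly_sum_eps (p : ℕ) [Fact p.Prime] (S : Finset Nat.Primes) (hpS : pPrime p ∈ S) :
    ∑ q : ↥S, (if (q.1 : ℕ) = p then 1 else 0) = 1 := by
  classical
  have h1 : ∀ q : ↥S, (if (q.1 : ℕ) = p then 1 else 0) =
      (if q = (⟨pPrime p, hpS⟩ : ↥S) then 1 else 0) := by
    intro q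
    have : ((q.1 : ℕ) = p) ↔ q = (⟨pPrime p, hpS⟩ : ↥S) := by
      constructor
      · intro hq
        exact Subtype.ext (Subtype.ext hq)
      · intro hq
        rw [hq]
        rfl
    simp only [this]
  rw [Finset.sum_congr rfl (fun q _ => h1 q), Finset.sum_ite_eq']
  simp

/-- E8. assembly of all the arithmetic. -/
theorem arithAssembly : Stmt_arithAssembly := by
  intro hSh hPd hH2 hLN hLN3 hF hDC hS2 hTW hGR hGN hK3 p _ hp2 S hpS h
  let ε : (qDatum p S h).ι → ℕ := fun q => if ((q : ↥S).1 : ℕ) = p then 1 else 0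
  have hLN' : ∀ v, (qDatum p S h).InLN v (ε v) := fun v => hLN p S h v
  have hεsum : ∑ v, ε v = 1 := assembly_sum_eps p S hpS
  have key : ∀ H : Subgroup (qDatum p S h).G, (qDatum p S h).Good H →
      (Module.Finite (ZMod p) (Hlc (qDatum p S h).𝒰 (permRep (ZMod p) H) 1) ∧
        Module.Finite (ZMod p) (Hlc (qDatum p S h).𝒰 (permRep (ZMod p) H) 2)) ∧
      2 * (qDatum p S h).shadim (permRep (ZMod p) H) 2 + (qDatum p S h).pdim (permRep (ZMod p) H) 1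
        ≤ 2 * (qDatum p S h).hdim (permRep (ZMod p) H) 1 ∧
      2 * (qDatum p S h).hdim (permRep (ZMod p) H) 1
        ≤ 2 * (qDatum p S h).hdim (permRep (ZMod p) H) 2
          + (qDatum p S h).pdim (permRep (ZMod p) H) 1 := by
    intro H hH
    obtain ⟨k, _, ζ, rfl, hB, hn⟩ := hF p hp2 S hpS h H hH
    obtain ⟨g1, g2, g3, g4⟩ := hGN p S k ζ hB
    have hprim : IsPrimitiveRoot (⟨ζ, hB.zeta_mem⟩ : k) p :=
      IsPrimitiveRoot.of_map_of_injective (f := k.val) hB.zeta k.val.injective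
    have hK := hK3 k p Fact.out hp2 ⟨_, hprim⟩
    have hidx : (∑ v, ε v) * (k.fixingSubgroup : Subgroup (qDatum p S h).G).index
        = 2 * (Module.finrank ℚ k / 2) := by
      rw [hεsum, one_mul]
      have : (k.fixingSubgroup : Subgroup (qDatum p S h).G).index = Module.finrank ℚ k := hn.symm
      rw [this]
      omega
    exact assembly_abstract (qDatum p S h) hSh hPd hH2 ε hLN' k.fixingSubgroup hH
      (GN.Sha2K p S k) (hS2 p S h k hH.1) (GN.TS S k).ncard (Module.finrank ℚ k / 2)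
      (hDC p S h k) hidx g1 g2 g3 g4
  exact
    { ne := ⟨(⟨pPrime p, hpS⟩ : ↥S)⟩
      ln := fun v => ⟨_, hLN' v⟩
      ln3 := fun v => hLN3 p S h v
      gf := fun H hH => (key H hH).1
      gnp := fun H hH => (key H hH).2.1
      gnm := fun H hH => (key H hH).2.2
      tw := fun H hH => assembly_tw (qDatum p S h) hPd ε hLN' H hH (hTW p hp2 S hpS h H hH)
      gr := hGR p hp2 S hpS h }

end Fermat.Agent.CFT.Num

end
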