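/-
TEAM CFT -> S55, layer [NUM]: NUM-5, conjugation acts trivially on `H²`.
-/
import Fermat.Agent.CFT.Num.Interface
import Fermat.Agent.CFT.Top.SCb

set_option autoImplicit false

noncomputable section

namespace Fermat.Agent.CFT.Num

open Fermat.Agent.CFT.Top Cpx Module ExtCitation

theorem ConjTriv_aux {A : Type} [AddCommGroup A] (R P X2 X3 A1 Q Y2 Y1 F A2 : A)
    (c1 : P + X2 = R + X3) (c2 : P + Y2 = A1 + Q) (c3 : Y1 + F = A2 + Q) :
    R - F = (A1 - A2) - (X3 - Y1) + (X2 - Y2) := by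
  have hR := eq_sub_of_add_eq c1.symm
  have hP := eq_sub_of_add_eq c2
  have hQ := eq_sub_of_add_eq' c3.symm
  rw [hR, hP, hQ]
  abel

theorem conjTriv : Stmt_conjTriv := by
  intro k _ G _ 𝒰 N g x
  obtain ⟨f, rfl⟩ := cls2_surjective 𝒰 N x
  rw [conjAct, mapH_cls2, ← sub_eq_zero, ← map_sub, cls2_eq_zero_iff]
  obtain ⟨hcoc, hC2⟩ := mem_Z2.1 f.2
  refine ⟨fun a => f.1 (g, g⁻¹ * a * g) - f.1 (a, g), ?_, ?_⟩
  · obtain ⟨U, hU, h1, h2⟩ := mem_C2.1 hC2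
    have hn := 𝒰.normal U hU
    refine mem_C1.2 ⟨U, hU, fun a u hu => ?_, fun a u hu => ?_⟩
    · have e1 : g⁻¹ * (a * u) * g = (g⁻¹ * a * g) * (g⁻¹ * u * g) := by group
      have hu' : g⁻¹ * u * g ∈ U := by simpa using hn.conj_mem u hu g⁻¹
      have k1 := h1 g (g⁻¹ * a * g) 1 U.one_mem _ hu'
      have k2 := h1 a g u hu 1 U.one_mem
      rw [mul_one] at k1 k2
      rw [e1, k1, k2]
    · rw [map_sub, h2 _ u hu, h2 _ u hu]
  · intro a b
    have c1 := hcoc g (g⁻¹ * a * g) (g⁻¹ * b * g)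
    have c2 := hcoc a g (g⁻¹ * b * g)
    have c3 := hcoc a b g
    have e1 : g * (g⁻¹ * a * g) = a * g := by group
    have e2 : g * (g⁻¹ * b * g) = b * g := by group
    have e3 : g⁻¹ * a * g * (g⁻¹ * b * g) = g⁻¹ * (a * b) * g := by group
    rw [e1, e3] at c1
    rw [e2] at c2
    change N.ρ g (f.1 (g⁻¹ * a * g⁻¹⁻¹, g⁻¹ * b * g⁻¹⁻¹)) - f.1 (a, b) = _
    rw [inv_inv, map_sub]
    exact ConjTriv_aux _ _ _ _ _ _ _ _ _ _ c1 c2 c3

end Fermat.Agent.CFT.Num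

end
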