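/-
TEAM CFT -> S55, layer [NUM], task NUM-11 (helper53): good subgroups of `qDatum` are `Gal(ℚ̄/k)`.
-/
import Fermat.Agent.CFT.Num.Interface
import Fermat.Agent.CFT.CycloBridge

set_option autoImplicit false

noncomputable section

namespace Fermat.Agent.CFT.Num

open Fermat.Agent.CFT.Top Cpx Module ExtCitation

lemma FieldOf_isGalois : IsGalois ℚ (AlgebraicClosure ℚ) := by
  have : Algebra.IsAlgebraic ℚ (AlgebraicClosure ℚ) := AlgebraicClosure.isAlgebraic ℚ
  have : IsAlgClosure ℚ (AlgebraicClosure ℚ) := ⟨inferInstance, inferInstance⟩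
  have : Normal ℚ (AlgebraicClosure ℚ) := IsAlgClosure.normal ℚ (AlgebraicClosure ℚ)
  exact ⟨⟩

/-- **good subgroups are `Gal(ℚ̄/k)`.** -/
theorem fieldOf : Stmt_fieldOf := by
  intro p _ hp2 S hpS h H hH
  have hp : p.Prime := Fact.out
  have := FieldOf_isGalois
  obtain ⟨⟨U, ⟨_, F, hF, hFU⟩, hUH⟩, hχ⟩ := hH
  have hχ' : ∀ g ∈ H, cycloChar p g = 1 := hχ
  have hFfd : FiniteDimensional ℚ F := hF.1
  obtain ⟨k, hkfd, hkF, hkH⟩ := lc_exists_field_of_le H F (hFU.trans hUH)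
  have hnf : NumberField k := { to_charZero := inferInstance, to_finiteDimensional := hkfd }
  have : NeZero ((p : ℕ) : AlgebraicClosure ℚ) := ⟨Nat.cast_ne_zero.mpr hp.ne_zero⟩
  obtain ⟨ζ, hζ⟩ := HasEnoughRootsOfUnity.exists_primitiveRoot (AlgebraicClosure ℚ) p
  refine ⟨k, hnf, ζ, hkH, ⟨hp, hp2, ⟨pPrime p, hpS, rfl⟩, hF.of_le hkF, hζ, ?_⟩, ?_⟩
  · rw [← InfiniteGalois.fixedField_fixingSubgroup k, IntermediateField.mem_fixedField_iff, hkH]
    intro g hg
    have h1 := (cycloChar_eq_one_iff_mem_fixingSubgroup p g).mp (hχ' g hg)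
    rw [IntermediateField.mem_fixingSubgroup_iff] at h1
    exact h1 ζ (IntermediateField.subset_adjoin _ _ hζ.pow_eq_one)
  · rw [← hkH]
    exact IntermediateField.finrank_eq_fixingSubgroup_index _ k

end Fermat.Agent.CFT.Num

end
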