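/-
TEAM CFT -> S55, layer [NUM], N5: `H²(G,N)` is finite as soon as `Sha²(N)` and `P²(N)` are.
-/
import Fermat.Agent.CFT.Num.Interface

set_option autoImplicit false

namespace Fermat.Agent.CFT.Num

open Fermat.Agent.CFT.Top

theorem h2Finite : Stmt_h2Finite := by
  intro p _ D N hSha hP
  let f := (D.loc N).mapH 2
  have h1 : Module.Finite (ZMod p) (LinearMap.ker f) := hSha
  have h2 : Module.Finite (ZMod p) (LinearMap.range f) := inferInstance
  have h3 : Module.Finite (ZMod p) (Hlc D.𝒰 N 2 ⧸ LinearMap.ker f) :=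
    Module.Finite.equiv f.quotKerEquivRange.symm
  exact Module.Finite.of_submodule_quotient (LinearMap.ker f)

end Fermat.Agent.CFT.Num
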