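/-
TEAM CFT -> S55, layer [NUM], package NUM-4 (helper60): Mackey decomposition on `Hlc`.
-/
import Fermat.Agent.CFT.Num.Interface
import Fermat.Agent.CFT.Top.Pi
import Fermat.Agent.CFT.Top.SCa

set_option autoImplicit false

noncomputable section

namespace Fermat.Agent.CFT.Num

open Fermat.Agent.CFT.Top Cpx

/-! ### (0) a degreewise bijective morphism of complexes is bijective on cohomology -/

theorem Mackey_mapH_bijective {k : Type} [CommRing k] {C D : Cpx k} (φ : Cpx.Hom C D)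
    (hφ : ∀ n, Function.Bijective (φ.f n)) (n : ℕ) : Function.Bijective (φ.mapH n) := by
  constructor
  · rw [injective_iff_map_eq_zero]
    intro x hx
    obtain ⟨z, rfl⟩ := C.cls_surjective n x
    rw [Hom.mapH_cls, cls_eq_zero_iff] at hx
    rw [cls_eq_zero_iff]
    cases n with
    | zero =>
      rw [mem_B_zero] at hx ⊢
      apply (hφ 0).1
      rw [map_zero]
      exact hx
    | succ m =>
      obtain ⟨y, hy⟩ := mem_B_succ.1 hx
      obtain ⟨y', rfl⟩ := (hφ m).2 y
      refine mem_B_succ.2 ⟨y', (hφ (m + 1)).1 ?_⟩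
      rw [φ.comm, hy]
      rfl
  · intro y
    obtain ⟨w, rfl⟩ := D.cls_surjective n y
    obtain ⟨z, hz⟩ := (hφ n).2 (w : D.X n)
    have hZ : z ∈ C.Z n := by
      rw [mem_Z]
      apply (hφ (n + 1)).1
      rw [φ.comm, hz, map_zero]
      exact mem_Z.1 w.2
    refine ⟨C.cls n ⟨z, hZ⟩, ?_⟩
    rw [Hom.mapH_cls]
    congr 1
    exact Subtype.ext hz

/-! ### (a) `Hlc` commutes with finite products of modules -/

section Prod

variable {k : Type} [CommRing k] {Γ : Type} [Group Γ]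

/-- the comparison morphism `C(Γ, P) → ∏ₓ C(Γ, M x)`. -/
def Mackey_cmp (𝒱 : LevelSys Γ) {X : Type} (P : Rep.{0} k Γ) (M : X → Rep.{0} k Γ)
    (pr : ∀ x, P →ₗ[k] M x) (hpr : ∀ x (γ : Γ) (p : P), pr x (P.ρ γ p) = (M x).ρ γ (pr x p)) :
    Cpx.Hom (lcCpx 𝒱 P) (Cpx.pi fun x => lcCpx 𝒱 (M x)) :=
  piLift fun x => lcLin 𝒱 (pr x) (hpr x)

theorem Mackey_cmp_bijective (𝒱 : LevelSys Γ) {X : Type} [Finite X] (P : Rep.{0} k Γ)
    (M : X → Rep.{0} k Γ) (pr : ∀ x, P →ₗ[k] M x)
    (hpr : ∀ x (γ : Γ) (p : P), pr x (P.ρ γ p) = (M x).ρ γ (pr x p))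
    (hbij : Function.Bijective fun (p : P) (x : X) => pr x p) (n : ℕ) :
    Function.Bijective ((Mackey_cmp 𝒱 P M pr hpr).f n) := by
  constructor
  · intro f f' h
    apply Subtype.ext
    funext g
    apply hbij.1
    funext x
    have h1 := congrFun h x
    have h2 := congrArg (fun c : ↥(lcCochains 𝒱 (M x) n) => c.1 g) h1
    exact h2
  · intro F
    have hF : ∀ x, ∃ U ∈ 𝒱.S, IsLevel (M x) U n (show ↥(lcCochains 𝒱 (M x) n) from F x).1 :=
      fun x => (show ↥(lcCochains 𝒱 (M x) n) from F x).2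
    choose U hU hlev using hF
    obtain ⟨V, hV, hVU⟩ := 𝒱.exists_le_of_finite U hU
    choose s hs using hbij.2
    let f : (Fin n → Γ) → P := fun g =>
      s fun x => (show ↥(lcCochains 𝒱 (M x) n) from F x).1 g
    have hf : ∀ g x, pr x (f g) = (show ↥(lcCochains 𝒱 (M x) n) from F x).1 g := fun g x =>
      congrFun (hs fun x => (show ↥(lcCochains 𝒱 (M x) n) from F x).1 g) x
    have hmem : f ∈ lcCochains 𝒱 P n := by
      refine ⟨V, hV, fun g g' hg => ?_, fun g u hu => ?_⟩
      · apply hbij.1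
        funext x
        show pr x (f g) = pr x (f g')
        rw [hf, hf]
        exact (hlev x).1 g g' fun i => hVU x (hg i)
      · apply hbij.1
        funext x
        show pr x (P.ρ u (f g)) = pr x (f g)
        rw [hpr, hf]
        exact (hlev x).2 g u (hVU x hu)
    refine ⟨⟨f, hmem⟩, ?_⟩
    funext x
    apply Subtype.ext
    funext g
    exact hf g x

/-- `Hlc` commutes with finite products of modules. -/
theorem Mackey_prod (𝒱 : LevelSys Γ) {X : Type} [Finite X] (P : Rep.{0} k Γ)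
    (M : X → Rep.{0} k Γ) (pr : ∀ x, P →ₗ[k] M x)
    (hpr : ∀ x (γ : Γ) (p : P), pr x (P.ρ γ p) = (M x).ρ γ (pr x p))
    (hbij : Function.Bijective fun (p : P) (x : X) => pr x p) (n : ℕ) :
    Nonempty (Hlc 𝒱 P n ≃ₗ[k] ((x : X) → Hlc 𝒱 (M x) n)) := by
  let e₁ := LinearEquiv.ofBijective ((Mackey_cmp 𝒱 P M pr hpr).mapH n)
    (Mackey_mapH_bijective _ (Mackey_cmp_bijective 𝒱 P M pr hpr hbij) n)
  let Φ : (Cpx.pi fun x => lcCpx 𝒱 (M x)).H n →ₗ[k] ∀ x, (lcCpx 𝒱 (M x)).H n :=
    LinearMap.pi fun x => (piProj (fun x => lcCpx 𝒱 (M x)) x).mapH n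
  let e₂ := LinearEquiv.ofBijective Φ (stmt_piH k X (fun x => lcCpx 𝒱 (M x)) n)
  exact ⟨e₁.trans e₂⟩

end Prod

/-! ### (b) the decomposition of `G/H` into `Γ`-orbits -/

section Orbits

variable {G Γ : Type} [Group G] [Group Γ] (φ : Γ →* G) (H : Subgroup G)

/-- `γ Stab(g) ↦ φ(γ) g H`. -/
def Mackey_theta (g : G) : Γ ⧸ stabAt φ H g → G ⧸ H :=
  Quotient.lift (fun γ : Γ => ((φ γ * g : G) : G ⧸ H)) (by
    intro a b hab
    have h1 : a⁻¹ * b ∈ stabAt φ H g := QuotientGroup.leftRel_apply.mp hab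
    rw [mem_stabAt] at h1
    apply QuotientGroup.eq.2
    have : (φ a * g)⁻¹ * (φ b * g) = g⁻¹ * φ (a⁻¹ * b) * g := by
      rw [map_mul, map_inv]
      group
    rw [this]
    exact h1)

theorem Mackey_theta_mk (g : G) (γ : Γ) :
    Mackey_theta φ H g (γ : Γ ⧸ stabAt φ H g) = ((φ γ * g : G) : G ⧸ H) := rfl

theorem Mackey_theta_smul (g : G) (γ : Γ) (c : Γ ⧸ stabAt φ H g) :
    Mackey_theta φ H g (γ • c) = φ γ • Mackey_theta φ H g c := by
  induction c using QuotientGroup.induction_on with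
  | H a =>
    rw [MulAction.Quotient.smul_coe, Mackey_theta_mk, Mackey_theta_mk,
      MulAction.Quotient.smul_coe, smul_eq_mul, smul_eq_mul, map_mul, mul_assoc]

theorem Mackey_theta_injective (g : G) : Function.Injective (Mackey_theta φ H g) := by
  intro c c' h
  induction c using QuotientGroup.induction_on with
  | H a =>
    induction c' using QuotientGroup.induction_on with
    | H b =>
      rw [Mackey_theta_mk, Mackey_theta_mk] at h
      have h1 := QuotientGroup.eq.1 h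
      apply QuotientGroup.eq.2
      rw [mem_stabAt]
      have : (φ a * g)⁻¹ * (φ b * g) = g⁻¹ * φ (a⁻¹ * b) * g := by
        rw [map_mul, map_inv]
        group
      rwa [this] at h1

theorem Mackey_theta_eq {x x' : DC φ H} {c : Γ ⧸ stabAt φ H (Quotient.out x)}
    {c' : Γ ⧸ stabAt φ H (Quotient.out x')}
    (h : Mackey_theta φ H _ c = Mackey_theta φ H _ c') : x = x' := by
  induction c using QuotientGroup.induction_on with
  | H a =>
    induction c' using QuotientGroup.induction_on with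
    | H b =>
      rw [Mackey_theta_mk, Mackey_theta_mk] at h
      have h1 := QuotientGroup.eq.1 h
      rw [← DoubleCoset.out_eq' φ.range H x, ← DoubleCoset.out_eq' φ.range H x', DoubleCoset.eq]
      refine ⟨φ (b⁻¹ * a), ⟨_, rfl⟩, _, h1, ?_⟩
      rw [map_mul, map_inv]
      group

theorem Mackey_theta_surjective (c : G ⧸ H) :
    ∃ (x : DC φ H) (d : Γ ⧸ stabAt φ H (Quotient.out x)), Mackey_theta φ H _ d = c := by
  induction c using QuotientGroup.induction_on with
  | H a =>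
    obtain ⟨h, l, ⟨γ, rfl⟩, hl, hout⟩ := DoubleCoset.mk_out_eq_mul φ.range H a
    refine ⟨DoubleCoset.mk φ.range H a, ((γ⁻¹ : Γ) : Γ ⧸ stabAt φ H _), ?_⟩
    rw [Mackey_theta_mk]
    apply QuotientGroup.eq.2
    have h2 : Quotient.out (DoubleCoset.mk φ.range H a) = φ γ * a * l := hout
    rw [h2, map_inv]
    have : (((φ γ)⁻¹ * (φ γ * a * l))⁻¹ * a) = l⁻¹ := by group
    rw [this]
    exact H.inv_mem hl

theorem Mackey_congr {α : Type*} (F : ∀ x : DC φ H, Γ ⧸ stabAt φ H (Quotient.out x) → α)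
    {x x' : DC φ H} {d : Γ ⧸ stabAt φ H (Quotient.out x)}
    {d' : Γ ⧸ stabAt φ H (Quotient.out x')}
    (h : Mackey_theta φ H _ d' = Mackey_theta φ H _ d) : F x' d' = F x d := by
  obtain rfl : x' = x := Mackey_theta_eq φ H h
  rw [Mackey_theta_injective φ H _ h]

end Orbits

/-! ### Mackey -/

theorem mackey (h : Stmt_stabOpen) : Stmt_mackey := by
  intro k _ G Γ _ _ 𝒰 𝒱 φ hφ H hH n
  have hfin : Finite (DC φ H) := (h G Γ 𝒰 𝒱 φ hφ H hH 1).2.2
  let pr : ∀ x : DC φ H, (Rep.res φ (permRep k H)) →ₗ[k]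
      (permRep k (stabAt φ H (Quotient.out x)) : Rep.{0} k Γ) := fun x =>
    { toFun := fun f c => f (Mackey_theta φ H _ c)
      map_add' := fun _ _ => rfl
      map_smul' := fun _ _ => rfl }
  refine Mackey_prod (X := DC φ H) 𝒱 (Rep.res φ (permRep k H))
    (fun x => permRep k (stabAt φ H (Quotient.out x))) pr ?_ ?_ n
  · intro x γ f
    funext c
    show f ((φ γ)⁻¹ • Mackey_theta φ H _ c) = f (Mackey_theta φ H _ (γ⁻¹ • c))
    rw [Mackey_theta_smul, map_inv]
  · constructor
    · intro f f' hff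
      funext c
      obtain ⟨x, d, rfl⟩ := Mackey_theta_surjective φ H c
      exact congrFun (congrFun hff x) d
    · intro F
      classical
      choose X D hXD using Mackey_theta_surjective φ H
      refine ⟨fun c => F (X c) (D c), ?_⟩
      funext x d
      show F (X (Mackey_theta φ H _ d)) (D (Mackey_theta φ H _ d)) = F x d
      exact Mackey_congr φ H F (hXD (Mackey_theta φ H _ d))

end Fermat.Agent.CFT.Num

end
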