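/-
TEAM CFT -> S55, layer [NUM].  Package NUM-7 : `dim P¹(N_H)`, `dim P²(N_H)`.
-/
import Fermat.Agent.CFT.Num.Interface
import Fermat.Agent.CFT.Top.Pi

set_option autoImplicit false

noncomputable section

namespace Fermat.Agent.CFT.Num

open Fermat.Agent.CFT.Top Cpx Module

/-- cohomology of a product of complexes, as a linear equivalence. -/
def pdim_piEquiv {k : Type} [CommRing k] {ι : Type} (C : ι → Cpx k) (n : ℕ) :
    (pi C).H n ≃ₗ[k] ∀ v, (C v).H n :=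
  LinearEquiv.ofBijective (LinearMap.pi fun v => (piProj C v).mapH n) (stmt_piH k ι C n)

lemma pdim_goodAt {p : ℕ} [Fact p.Prime] (D : Datum p) (h2 : Stmt_stabOpen) {H : Subgroup D.G}
    (hH : D.Good H) (v : D.ι) (g : D.G) : D.GoodAt v (stabAt (D.φ v) H g) := by
  refine ⟨(h2 D.G (D.Gv v) D.𝒰 (D.𝒰v v) (D.φ v) (D.cont v) H hH.1 g).1, ?_⟩
  intro γ hγ
  have h5 := hH.2 _ (mem_stabAt.1 hγ)
  rw [map_mul, map_mul, map_inv, mul_comm, ← mul_assoc, mul_inv_cancel, one_mul] at h5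
  exact h5

/-- the generic computation. -/
lemma pdim_aux {p : ℕ} [Fact p.Prime] (D : Datum p) (h1 : Stmt_mackey) (h2 : Stmt_stabOpen)
    {H : Subgroup D.G} (hH : D.Good H) (i : ℕ) (c : ∀ v, DC (D.φ v) H → ℕ)
    (hfin : ∀ v (x : DC (D.φ v) H), Module.Finite (ZMod p)
      (Hlc (D.𝒰v v) (permRep (ZMod p) (stabAt (D.φ v) H (Quotient.out x))) i))
    (hrank : ∀ v (x : DC (D.φ v) H), finrank (ZMod p)
      (Hlc (D.𝒰v v) (permRep (ZMod p) (stabAt (D.φ v) H (Quotient.out x))) i) = c v x) :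
    Module.Finite (ZMod p) ((D.locCpx (permRep (ZMod p) H)).H i) ∧
      D.pdim (permRep (ZMod p) H) i = ∑ v, ∑ᶠ x, c v x := by
  have hDC : ∀ v, Finite (DC (D.φ v) H) := fun v =>
    (h2 D.G (D.Gv v) D.𝒰 (D.𝒰v v) (D.φ v) (D.cont v) H hH.1 1).2.2
  have e1 := pdim_piEquiv (fun v => D.locCpxAt (permRep (ZMod p) H) v) i
  have e2 : ∀ v, (D.locCpxAt (permRep (ZMod p) H) v).H i ≃ₗ[ZMod p]
      ((x : DC (D.φ v) H) →
        Hlc (D.𝒰v v) (permRep (ZMod p) (stabAt (D.φ v) H (Quotient.out x))) i) := fun v =>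
    (h1 (ZMod p) D.G (D.Gv v) D.𝒰 (D.𝒰v v) (D.φ v) (D.cont v) H hH.1 i).some
  have hfin2 : ∀ v, Module.Finite (ZMod p) ((D.locCpxAt (permRep (ZMod p) H) v).H i) := by
    intro v
    have := hfin v
    exact Module.Finite.equiv (e2 v).symm
  have hrank2 : ∀ v, finrank (ZMod p) ((D.locCpxAt (permRep (ZMod p) H) v).H i)
      = ∑ᶠ x, c v x := by
    intro v
    have := hfin v
    cases nonempty_fintype (DC (D.φ v) H)
    rw [(e2 v).finrank_eq, Module.finrank_pi_fintype, finsum_eq_sum_of_fintype]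
    exact Finset.sum_congr rfl fun x _ => hrank v x
  refine ⟨Module.Finite.equiv e1.symm, ?_⟩
  show finrank (ZMod p) ((D.locCpx (permRep (ZMod p) H)).H i) = _
  rw [e1.finrank_eq, Module.finrank_pi_fintype]
  exact Finset.sum_congr rfl fun v _ => hrank2 v

theorem pdim (h1 : Stmt_mackey) (h2 : Stmt_stabOpen) (h3 : Stmt_orbitSum) : Stmt_pdim := by
  intro p _ D ε hLN H hH
  have hDC : ∀ v, Finite (DC (D.φ v) H) := fun v =>
    (h2 D.G (D.Gv v) D.𝒰 (D.𝒰v v) (D.φ v) (D.cont v) H hH.1 1).2.2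
  have hHfin : H.FiniteIndex := by
    obtain ⟨U, hU, hUH⟩ := hH.1
    have := D.𝒰.fin U hU
    exact Subgroup.finiteIndex_of_le hUH
  have hL := fun v (x : DC (D.φ v) H) =>
    hLN v _ (pdim_goodAt D h2 hH v (Quotient.out x))
  obtain ⟨hf1, hr1⟩ := pdim_aux D h1 h2 hH 1
    (fun v x => 2 + ε v * (stabAt (D.φ v) H (Quotient.out x)).index)
    (fun v x => (hL v x).1) (fun v x => (hL v x).2.1)
  obtain ⟨hf2, hr2⟩ := pdim_aux D h1 h2 hH 2 (fun _ _ => 1)
    (fun v x => (hL v x).2.2.1) (fun v x => (hL v x).2.2.2)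
  refine ⟨hf1, hf2, ?_, ?_⟩
  · rw [hr2]
    refine Finset.sum_congr rfl fun v _ => ?_
    cases nonempty_fintype (DC (D.φ v) H)
    rw [finsum_eq_sum_of_fintype, Finset.sum_const, Finset.card_univ, smul_eq_mul, mul_one, nOrb,
      Nat.card_eq_fintype_card]
  · rw [hr1, Finset.mul_sum, Finset.sum_mul, ← Finset.sum_add_distrib]
    refine Finset.sum_congr rfl fun v _ => ?_
    have h5 := h3 D.G (D.Gv v) (D.φ v) H hHfin
    cases nonempty_fintype (DC (D.φ v) H)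
    rw [finsum_eq_sum_of_fintype] at h5 ⊢
    rw [Finset.sum_add_distrib, ← Finset.mul_sum, h5, Finset.sum_const, Finset.card_univ,
      smul_eq_mul, nOrb, Nat.card_eq_fintype_card, mul_comm]

end Fermat.Agent.CFT.Num

end

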