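/-
TEAM CFT -> S55, layer [NUM], task NUM-9 (helper53): (LN) for `qDatum`.
-/
import Fermat.Agent.CFT.Num.Interface
import Fermat.Agent.CFT.CycloBridge

set_option autoImplicit false

noncomputable section

namespace Fermat.Agent.CFT.Num

open Fermat.Agent.CFT.Top Cpx Module ExtCitation

/-- transport of finiteness and dimension along Shapiro. -/
theorem QLN_transport (h2 : Stmt_shapiro) {k : Type} [Field k] {Γ : Type} [Group Γ]
    (𝒱 : LevelSys Γ) (H : Subgroup Γ) (hH : 𝒱.IsOpen H) (n d : ℕ)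
    (hf : Module.Finite k (Hlc (𝒱.sub H) (Rep.trivial k H k) n))
    (hd : finrank k (Hlc (𝒱.sub H) (Rep.trivial k H k) n) = d) :
    Module.Finite k (Hlc 𝒱 (permRep k H) n) ∧ finrank k (Hlc 𝒱 (permRep k H) n) = d := by
  let e : Hlc 𝒱 (permRep k H) n ≃ₗ[k] Hlc (𝒱.sub H) (Rep.trivial k H k) n :=
    LinearEquiv.ofBijective ((shap k 𝒱 H).mapH n) (h2 k Γ 𝒱 H hH n)
  exact ⟨Module.Finite.equiv e.symm, by rw [e.finrank_eq, hd]⟩

/-- an element of `G_{ℚ_q}` on which the global cyclotomic character is trivial fixes `μ_p`. -/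
theorem QLN_fix (q p : ℕ) [Fact q.Prime] [Fact p.Prime] (g : Local.Gq q)
    (hg : cycloChar p (localGaloisToGlobal q g) = 1) (z : PadicAlgCl q) (hz : z ^ p = 1) :
    g z = z := by
  have hp : p.Prime := Fact.out
  have : NeZero p := ⟨hp.ne_zero⟩
  have : Fact (1 < p) := ⟨hp.one_lt⟩
  have : NeZero ((p : ℕ) : AlgebraicClosure ℚ) := ⟨Nat.cast_ne_zero.mpr hp.ne_zero⟩
  obtain ⟨ζ0, hζ0⟩ := HasEnoughRootsOfUnity.exists_primitiveRoot (AlgebraicClosure ℚ) p
  have hζ1 : IsPrimitiveRoot (padicEmbedding q ζ0) p :=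
    hζ0.map_of_injective (padicEmbedding q).toRingHom.injective
  obtain ⟨i, -, rfl⟩ := hζ1.eq_pow_of_pow_eq_one hz
  rw [map_pow, ← padicEmbedding_localGaloisToGlobal, apply_eq_pow_cycloChar p _ hζ0.pow_eq_one,
    hg, Units.val_one, ZMod.val_one, pow_one]

theorem QLN_local (h1 : Local.Stmt_LN) (h2 : Stmt_shapiro) (q p : ℕ) [Fact q.Prime]
    [Fact p.Prime] (H : Subgroup (Local.Gq q)) (hH : (Local.levq q).IsOpen H)
    (hχ : ∀ g ∈ H, cycloChar p (localGaloisToGlobal q g) = 1) :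
    Module.Finite (ZMod p) (Hlc (Local.levq q) (permRep (ZMod p) H) 1) ∧
    finrank (ZMod p) (Hlc (Local.levq q) (permRep (ZMod p) H) 1)
      = 2 + (if q = p then 1 else 0) * H.index ∧
    Module.Finite (ZMod p) (Hlc (Local.levq q) (permRep (ZMod p) H) 2) ∧
    finrank (ZMod p) (Hlc (Local.levq q) (permRep (ZMod p) H) 2) = 1 := by
  obtain ⟨a1, a2, a3, a4, -⟩ := h1 q p H hH (fun g hg z hz => QLN_fix q p g (hχ g hg) z hz)
  obtain ⟨b1, b2⟩ := QLN_transport h2 (Local.levq q) H hH 1 _ a1 a2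
  obtain ⟨b3, b4⟩ := QLN_transport h2 (Local.levq q) H hH 2 _ a3 a4
  refine ⟨b1, ?_, b3, b4⟩
  rw [b2]
  split_ifs <;> simp

/-- **(LN) for `qDatum`.** -/
theorem qLN (h1 : Local.Stmt_LN) (h2 : Stmt_shapiro) : Stmt_qLN := by
  intro p _ S h q H hH
  let _ : Fact (q.1 : ℕ).Prime := ⟨q.1.2⟩
  exact QLN_local h1 h2 (q.1 : ℕ) p H hH.1 hH.2

end Fermat.Agent.CFT.Num

end
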