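/-
TEAM CFT -> S55, layer [NUM], task NUM-10 (helper53): (LN3) for `qDatum`.
-/
import Fermat.Agent.CFT.Num.Interface
import Fermat.Agent.CFT.Local.LN3

set_option autoImplicit false

noncomputable section

namespace Fermat.Agent.CFT.Num

open Fermat.Agent.CFT.Top Cpx Module ExtCitation

attribute [local instance] Units.mulDistribMulActionRight

/-- `#H²(G_{ℚ_q}, μ_p) = p`. -/
theorem QLN3_card (h1 : Local.Stmt_towerKummer) (h2 : Local.Stmt_padicTower) (q p : ℕ)
    [Fact q.Prime] [Fact p.Prime] :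
    Nat.card (Hlc (Local.levq q)
      (Rep.res (localGaloisToGlobal q) (muRep (ZMod p) (cycloChar p))) 2) = p := by
  have hp : p.Prime := Fact.out
  have : NeZero p := ⟨hp.ne_zero⟩
  have : NeZero ((p : ℕ) : AlgebraicClosure ℚ) := ⟨Nat.cast_ne_zero.mpr hp.ne_zero⟩
  obtain ⟨ζ0, hζ0⟩ := HasEnoughRootsOfUnity.exists_primitiveRoot (AlgebraicClosure ℚ) p
  have hζ1 : IsPrimitiveRoot (padicEmbedding q ζ0) p :=
    hζ0.map_of_injective (padicEmbedding q).toRingHom.injective
  let ζ : (PadicAlgCl q)ˣ := Units.mk0 (padicEmbedding q ζ0) (hζ1.ne_zero hp.ne_zero)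
  have hζ : IsPrimitiveRoot ζ p := IsPrimitiveRoot.coe_units_iff.mp hζ1
  have hp0 : ((p : ℕ) : PadicAlgCl q) ≠ 0 := Nat.cast_ne_zero.mpr hp.ne_zero
  have key := h1 (Local.Gq q) (PadicAlgCl q) (Local.levq q) (h2 q) p hp0
    (Rep.res (localGaloisToGlobal q) (muRep (ZMod p) (cycloChar p)))
    (Local.LN3_e p ζ hζ.pow_eq_one) (Local.LN3_e_injective p ζ hζ) ?_
    (Local.LN3_e_surjective p ζ hζ)
  · exact key.2.1
  · intro g n
    set c : (ZMod p)ˣ := cycloChar p (localGaloisToGlobal q g) with hc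
    have hρ : (Rep.res (localGaloisToGlobal q)
        (muRep (ZMod p) (cycloChar p))).ρ g n = (c : ZMod p) * (n : ZMod p) := rfl
    have hgζ : g • ζ = ζ ^ (c : ZMod p).val := by
      apply Units.ext
      change g (padicEmbedding q ζ0) = _
      rw [← padicEmbedding_localGaloisToGlobal, apply_eq_pow_cycloChar p _ hζ0.pow_eq_one,
        map_pow, Units.val_pow_eq_pow_val]
      rfl
    rw [hρ]
    change Additive.ofMul (ζ ^ ((c : ZMod p) * (n : ZMod p)).val)
      = Additive.ofMul (g • (ζ ^ (n : ZMod p).val))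
    rw [smul_pow', hgζ, ← pow_mul, ZMod.val_mul, ← pow_eq_pow_mod _ hζ.pow_eq_one]

/-- **(LN3) for `qDatum`.** -/
theorem qLN3 (h1 : Local.Stmt_towerKummer) (h2 : Local.Stmt_padicTower) : Stmt_qLN3 := by
  intro p _ S h q
  have hp : p.Prime := Fact.out
  let _ : Fact (q.1 : ℕ).Prime := ⟨q.1.2⟩
  have hc := QLN3_card h1 h2 (q.1 : ℕ) p
  have h3 : Nontrivial (Hlc (Local.levq (q.1 : ℕ))
      (Rep.res (localGaloisToGlobal (q.1 : ℕ)) (muRep (ZMod p) (cycloChar p))) 2) := by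
    have hfin : Finite (Hlc (Local.levq (q.1 : ℕ))
      (Rep.res (localGaloisToGlobal (q.1 : ℕ)) (muRep (ZMod p) (cycloChar p))) 2) :=
      Nat.finite_of_card_ne_zero (by rw [hc]; exact hp.ne_zero)
    exact Finite.one_lt_card_iff_nontrivial.mp (by rw [hc]; exact hp.one_lt)
  exact h3

end Fermat.Agent.CFT.Num

end
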