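/-
TEAM CFT -> S55, layer [NUM], package NUM-13: Shapiro maps `Sha²(N_H)` into `GN.Sha2K`.
-/
import Fermat.Agent.CFT.Num.Interface
import Fermat.Agent.CFT.Top.DeltaNat
import Fermat.Agent.CFT.GN.DictD
import Fermat.Agent.CFT.ShaBridge
import Fermat.Agent.CFT.Krasner

set_option autoImplicit false

noncomputable section

namespace Fermat.Agent.CFT.Num

open Fermat.Agent.CFT.Top Cpx Module ExtCitation

section Abstract

variable {k : Type} [CommRing k] {G Γ : Type} [Group G] [Group Γ]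

/-- `d ↦ φ⁻¹(g d g⁻¹)`, first with values in `Γ`. -/
def sha2K_beta (φ : Γ →* G) (hφ : Function.Injective φ) (H : Subgroup G) (g : G) (D : Subgroup H)
    (hD : ∀ d : H, d ∈ D → g * d * g⁻¹ ∈ φ.range) : D →* Γ :=
  (MonoidHom.ofInjective hφ).symm.toMonoidHom.comp
    (((MulAut.conj g).toMonoidHom.comp (H.subtype.comp D.subtype)).codRestrict φ.range
      (fun d => by simpa using hD d d.2))

lemma sha2K_beta_spec (φ : Γ →* G) (hφ : Function.Injective φ) (H : Subgroup G) (g : G)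
    (D : Subgroup H) (hD : ∀ d : H, d ∈ D → g * d * g⁻¹ ∈ φ.range) (d : D) :
    φ (sha2K_beta φ hφ H g D hD d) = g * ((d : H) : G) * g⁻¹ := by
  unfold sha2K_beta
  simp only [MonoidHom.comp_apply, MulEquiv.coe_toMonoidHom]
  rw [MonoidHom.apply_ofInjective_symm]
  simp

/-- the inverse of `conjHom` on `D`. -/
def sha2K_eps (φ : Γ →* G) (hφ : Function.Injective φ) (H : Subgroup G) (g : G) (D : Subgroup H)
    (hD : ∀ d : H, d ∈ D → g * d * g⁻¹ ∈ φ.range) : D →* stabAt φ H g :=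
  (sha2K_beta φ hφ H g D hD).codRestrict (stabAt φ H g) (fun d => by
    rw [mem_stabAt, sha2K_beta_spec]
    have : g⁻¹ * (g * ((d : H) : G) * g⁻¹) * g = ((d : H) : G) := by group
    rw [this]
    exact (d : H).2)

lemma sha2K_conjHom_eps (φ : Γ →* G) (hφ : Function.Injective φ) (H : Subgroup G) (g : G)
    (D : Subgroup H) (hD : ∀ d : H, d ∈ D → g * d * g⁻¹ ∈ φ.range) (d : D) :
    conjHom φ H g (sha2K_eps φ hφ H g D hD d) = (d : H) := by
  apply Subtype.ext
  rw [conjHom_coe]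
  change g⁻¹ * φ (sha2K_beta φ hφ H g D hD d) * g = _
  rw [sha2K_beta_spec]
  group

lemma sha2K_isCont_eps (𝒲 : LevelSys G) (φ : Γ →* G) (hφ : Function.Injective φ) (H : Subgroup G)
    (g : G) (D : Subgroup H) (hD : ∀ d : H, d ∈ D → g * d * g⁻¹ ∈ φ.range) :
    LevelSys.IsCont (𝒲.comap (H.subtype.comp D.subtype)) ((𝒲.comap φ).sub (stabAt φ H g))
      (sha2K_eps φ hφ H g D hD) := by
  rintro _ ⟨_, ⟨U, hU, rfl⟩, rfl⟩
  refine ⟨_, ⟨U, hU, rfl⟩, fun d hd => ?_⟩
  have hn := 𝒲.normal U hU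
  have hd' : ((d : H) : G) ∈ U := hd
  change φ (sha2K_beta φ hφ H g D hD d) ∈ U
  rw [sha2K_beta_spec]
  exact hn.conj_mem _ hd' g

theorem sha2K_abstract (𝒲 : LevelSys G) (φ : Γ →* G) (hφ : Function.Injective φ) (H : Subgroup G)
    (g : G) (D : Subgroup H) (hD : ∀ d : H, d ∈ D → g * d * g⁻¹ ∈ φ.range) (𝒰H : LevelSys H)
    (hc : LevelSys.IsCont ((𝒲.comap φ).sub (stabAt φ H g)) 𝒰H (conjHom φ H g))
    (hcD : LevelSys.IsCont (𝒲.comap (H.subtype.comp D.subtype)) 𝒰H D.subtype) (n : ℕ)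
    (y : Hlc 𝒰H (Rep.trivial k H k) n)
    (hy : (lcMap (conjHom φ H g) hc (M := Rep.trivial k H k)
      (M' := Rep.trivial k (stabAt φ H g) k) LinearMap.id (fun _ _ => rfl)).mapH n y = 0) :
    (lcRes D.subtype hcD (Rep.trivial k H k)).mapH n y = 0 := by
  have key : lcRes D.subtype hcD (Rep.trivial k H k) =
      (lcMap (conjHom φ H g) hc (M := Rep.trivial k H k)
        (M' := Rep.trivial k (stabAt φ H g) k) LinearMap.id (fun _ _ => rfl)).comp
      (lcMap (sha2K_eps φ hφ H g D hD) (sha2K_isCont_eps 𝒲 φ hφ H g D hD)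
        (M := Rep.trivial k (stabAt φ H g) k) (M' := Rep.res D.subtype (Rep.trivial k H k))
        LinearMap.id (fun _ _ => rfl)) := by
    apply Hom.ext
    intro m x
    apply Subtype.ext
    funext d
    change x.1 (fun i => D.subtype (d i)) =
      x.1 (fun i => conjHom φ H g (sha2K_eps φ hφ H g D hD (d i)))
    have e : (fun i => conjHom φ H g (sha2K_eps φ hφ H g D hD (d i))) =
        fun i => D.subtype (d i) := by
      funext i
      rw [sha2K_conjHom_eps]
      rfl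
    rw [e]
  rw [key, (stmt_mapH k _ _ _ _ _ n y).2, hy, map_zero]

end Abstract

section Arith

open Fermat.Agent.S54.Frob95 Fermat.Agent.S13.Mink
open scoped Pointwise

theorem sha2K_intCast_mem_nonunits (A : ValuationSubring (AlgebraicClosure ℚ)) {q : ℕ}
    (hq : q.Prime) (hA : A.LiesOverPrime q) (n : ℤ) :
    ((n : ℤ) : AlgebraicClosure ℚ) ∈ A.nonunits ↔ (q : ℤ) ∣ n := by
  have h1 : A.valuation (q : AlgebraicClosure ℚ) < 1 := (ValuationSubring.mem_nonunits_iff A).1 hA
  have hint : ∀ m : ℤ, A.valuation ((m : ℤ) : AlgebraicClosure ℚ) ≤ 1 := fun m =>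
    (A.valuation_le_one_iff _).2 (intCast_mem A m)
  rw [ValuationSubring.mem_nonunits_iff]
  constructor
  · intro hn
    by_contra hdvd
    obtain ⟨u, w, huw⟩ :=
      ((Nat.prime_iff_prime_int.mp hq).irreducible.coprime_iff_not_dvd).2 hdvd
    have e : (1 : AlgebraicClosure ℚ) = (u : AlgebraicClosure ℚ) * (q : AlgebraicClosure ℚ)
        + (w : AlgebraicClosure ℚ) * (n : AlgebraicClosure ℚ) := by
      have := congrArg (fun z : ℤ => (z : AlgebraicClosure ℚ)) huw
      push_cast at this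
      exact this.symm
    have h3 : A.valuation (1 : AlgebraicClosure ℚ) < 1 := by
      rw [e]
      apply Valuation.map_add_lt
      · rw [map_mul]
        exact lt_of_le_of_lt (mul_le_of_le_one_left' (hint u)) h1
      · rw [map_mul]
        exact lt_of_le_of_lt (mul_le_of_le_one_left' (hint w)) hn
    rw [map_one] at h3
    exact lt_irrefl _ h3
  · rintro ⟨m, rfl⟩
    push_cast
    rw [map_mul]
    exact lt_of_le_of_lt (mul_le_of_le_one_right' (hint m)) h1

theorem sha2K_under_eq (A A' : ValuationSubring (AlgebraicClosure ℚ)) {q : ℕ} (hq : q.Prime)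
    (hA : A.LiesOverPrime q) (hA' : A'.LiesOverPrime q) :
    (primeOf A).under ℤ = (primeOf A').under ℤ := by
  ext n
  rw [Ideal.mem_comap, Ideal.mem_comap, mem_primeOf, mem_primeOf]
  have e : ((algebraMap ℤ Zbar n : Zbar) : AlgebraicClosure ℚ) = ((n : ℤ) : AlgebraicClosure ℚ) := by
    simp
  rw [e, sha2K_intCast_mem_nonunits A hq hA, sha2K_intCast_mem_nonunits A' hq hA']

/-- `G_ℚ` permutes transitively the valuation subrings of `ℚ̄` over a prime number. -/
theorem sha2K_exists_smul_eq (A A' : ValuationSubring (AlgebraicClosure ℚ)) {q : ℕ} (hq : q.Prime)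
    (hA : A.LiesOverPrime q) (hA' : A'.LiesOverPrime q) : ∃ τ : Top.GQ, τ • A = A' := by
  obtain ⟨τ, hτ⟩ := Algebra.IsInvariant.exists_smul_of_under_eq_of_profinite
    (A := ℤ) (G := Top.GQ) (primeOf A) (primeOf A') (sha2K_under_eq A A' hq hA hA')
  have hτ' : τ • primeOf A = primeOf A' := hτ.symm
  have hinv : τ⁻¹ • primeOf A' = primeOf A := by
    rw [← hτ', ← ideal_mul_smul, inv_mul_cancel]
    exact (Ideal.pointwiseDistribMulAction (M := Top.GQ) (R := Zbar)).one_smul _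
  refine ⟨τ, ?_⟩
  ext x
  rw [ValuationSubring.mem_pointwise_smul_iff_inv_smul_mem]
  constructor
  · intro hx
    have := GN.DictD.map_mem_of_smul_eq A A' hq hA τ hτ' _ hx
    simpa using this
  · intro hx
    exact GN.DictD.map_mem_of_smul_eq A' A hq hA' τ⁻¹ hinv x hx

theorem sha2K_mem_range (q : Nat.Primes) (A : ValuationSubring (AlgebraicClosure ℚ)) (τ : Top.GQ)
    (hτ : τ • primeLocalPlace q = A) (σ : Top.GQ) (hσ : σ ∈ A.decompositionSubgroup ℚ) :
    τ⁻¹ * σ * τ⁻¹⁻¹ ∈ (primeLocalToGlobal q).range := by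
  rw [range_primeLocalToGlobal, decompQ]
  have h1 : σ • A = A := MulAction.mem_stabilizer_iff.mp hσ
  apply MulAction.mem_stabilizer_iff.mpr
  rw [inv_inv, mul_smul, mul_smul, hτ, h1, ← hτ, inv_smul_smul]

theorem sha2K_injective (q : Nat.Primes) : Function.Injective (primeLocalToGlobal q) := by
  let _ : Fact (q : ℕ).Prime := ⟨q.2⟩
  exact localGaloisToGlobal_injective (q : ℕ)

theorem sha2K_liesOver (q : Nat.Primes) : (primeLocalPlace q).LiesOverPrime (q : ℕ) := by
  let _ : Fact (q : ℕ).Prime := ⟨q.2⟩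
  exact padicPlace_liesOverPrime (q : ℕ)

end Arith

/-- E5 -/
theorem sha2K (h1 : Stmt_shaLocal) (h2 : Stmt_stabOpen) (_hD : GN.Stmt_DictD) : Stmt_sha2K := by
  intro p _ S h k hopen x hx
  unfold GN.Sha2K
  simp only [Submodule.mem_iInf, LinearMap.mem_ker]
  intro q hq A hA
  obtain ⟨τ, hτ⟩ := sha2K_exists_smul_eq (primeLocalPlace q) A q.2 (sha2K_liesOver q) hA
  have hc := (h2 GQ (primeLocalGaloisGroup q) (levS S) (levAll.comap (primeLocalToGlobal q))
    (primeLocalToGlobal q) ((qDatum p S h).cont ⟨q, hq⟩) k.fixingSubgroup hopen τ⁻¹).2.1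
  have h3 := h1 p (qDatum p S h) k.fixingSubgroup hopen x hx ⟨q, hq⟩ τ⁻¹ hc
  exact sha2K_abstract levAll (primeLocalToGlobal q) (sha2K_injective q) k.fixingSubgroup τ⁻¹
    ((A.decompositionSubgroup ℚ).subgroupOf k.fixingSubgroup)
    (fun d hd => sha2K_mem_range q A τ hτ d hd) ((levS S).sub k.fixingSubgroup) hc
    (GN.isCont_levD S k A) 2 _ h3

end Fermat.Agent.CFT.Num

end
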