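/-
TEAM CFT -> S55, layer [NUM], task NUM-6 (helper35): a class of `Sha²(N_H)` goes under Shapiro to a
class of `H²(H, 𝔽_p)` which is trivial on all the local groups `stabAt (φ v) H g → H`.
`shaLocal (h : Stmt_conjTriv) : Stmt_shaLocal`.
-/
import Fermat.Agent.CFT.Num.Interface
import Fermat.Agent.CFT.Top.DeltaNat

set_option autoImplicit false

noncomputable section

namespace Fermat.Agent.CFT.Num

open Fermat.Agent.CFT.Top Cpx Module

section

variable {k : Type} [CommRing k] {G Γ : Type} [Group G] [Group Γ]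

variable (k) in
/-- evaluation at `gH`, written as `ev₁ ∘ g⁻¹` -/
def shaLocalPsi (φ : Γ →* G) (H : Subgroup G) (g : G) :
    Rep.res φ (permRep k H) →ₗ[k] Rep.trivial k (stabAt φ H g) k :=
  (evAt H (Rep.trivial k G k) 1) ∘ₗ ((permRep k H).ρ g⁻¹)

lemma shaLocalPsi_apply (φ : Γ →* G) (H : Subgroup G) (g : G) (f : permRep k H) :
    shaLocalPsi k φ H g f = f (g : G ⧸ H) := by
  show f ((g⁻¹)⁻¹ • ((1 : G) : G ⧸ H)) = f (g : G ⧸ H)
  rw [MulAction.Quotient.smul_coe]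
  simp

lemma shaLocalPsi_comm (φ : Γ →* G) (H : Subgroup G) (g : G) (γ : stabAt φ H g)
    (f : Rep.res φ (permRep k H)) :
    shaLocalPsi k φ H g ((Rep.res φ (permRep k H)).ρ ((stabAt φ H g).subtype γ) f)
      = (Rep.trivial k (stabAt φ H g) k).ρ γ (shaLocalPsi k φ H g f) := by
  show shaLocalPsi k φ H g ((permRep k H).ρ (φ γ) f) = shaLocalPsi k φ H g f
  rw [shaLocalPsi_apply, shaLocalPsi_apply]
  show f ((φ γ)⁻¹ • (g : G ⧸ H)) = f (g : G ⧸ H)
  congr 1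
  rw [MulAction.Quotient.smul_coe, QuotientGroup.eq]
  have h1 := mem_stabAt.mp γ.2
  have h2 : ((φ γ)⁻¹ • g)⁻¹ * g = g⁻¹ * φ γ * g := by
    simp [smul_eq_mul, mul_assoc]
  rw [h2]
  exact h1

/-- the key identity of morphisms of complexes -/
lemma shaLocal_comp (𝒰 : LevelSys G) (𝒱 : LevelSys Γ) (φ : Γ →* G)
    (hφ : LevelSys.IsCont 𝒱 𝒰 φ) (H : Subgroup G) (g : G)
    (hc : LevelSys.IsCont (𝒱.sub (stabAt φ H g)) (𝒰.sub H) (conjHom φ H g)) :
    (conjAct 𝒰 (permRep k H) g⁻¹).comp ((shap k 𝒰 H).comp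
      (lcMap (conjHom φ H g) hc (M := Rep.trivial k H k)
        (M' := Rep.trivial k (stabAt φ H g) k) LinearMap.id (fun _ _ => rfl)))
    = (lcRes φ hφ (permRep k H)).comp
      (lcMap (stabAt φ H g).subtype (𝒱.isCont_comap _) (M := Rep.res φ (permRep k H))
        (M' := Rep.trivial k (stabAt φ H g) k) (shaLocalPsi k φ H g) (shaLocalPsi_comm φ H g)) := by
  apply Cpx.Hom.ext
  intro n x
  apply Subtype.ext
  funext γ
  show evAt H (Rep.trivial k G k) 1 ((permRep k H).ρ g⁻¹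
      ((show ↥(lcCochains 𝒰 (permRep k H) n) from x).1
        fun i => (MulAut.conj (g⁻¹)⁻¹).toMonoidHom (H.subtype (conjHom φ H g (γ i))))) =
    evAt H (Rep.trivial k G k) 1 ((permRep k H).ρ g⁻¹
      ((show ↥(lcCochains 𝒰 (permRep k H) n) from x).1 fun i => φ ((stabAt φ H g).subtype (γ i))))
  congr 3
  funext i
  simp [conjHom_coe, mul_assoc]

end

theorem shaLocal (h : Stmt_conjTriv) : Stmt_shaLocal := by
  intro p _ D H _ x hx v g hc
  -- local triviality at `v`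
  have h1 : (lcRes (D.φ v) (D.cont v) (permRep (ZMod p) H)).mapH 2 x = 0 := by
    have h2 : (D.loc (permRep (ZMod p) H)).mapH 2 x = 0 := hx
    have h3 := (stmt_mapH (ZMod p) _ _ _ (D.loc (permRep (ZMod p) H))
      (piProj (fun v => D.locCpxAt (permRep (ZMod p) H) v) v) 2 x).2
    rw [h2, map_zero] at h3
    exact h3
  have h4 := h (ZMod p) D.G D.𝒰 (permRep (ZMod p) H) g⁻¹ x
  rw [← h4]
  have h5 := (stmt_mapH (ZMod p) _ _ _ (shap (ZMod p) D.𝒰 H)
    (lcMap (conjHom (D.φ v) H g) hc (M := Rep.trivial (ZMod p) H (ZMod p))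
        (M' := Rep.trivial (ZMod p) (stabAt (D.φ v) H g) (ZMod p)) LinearMap.id
        (fun _ _ => rfl)) 2 ((conjAct D.𝒰 (permRep (ZMod p) H) g⁻¹).mapH 2 x)).2
  rw [← h5]
  have h6 := (stmt_mapH (ZMod p) _ _ _ (conjAct D.𝒰 (permRep (ZMod p) H) g⁻¹)
    ((shap (ZMod p) D.𝒰 H).comp
    (lcMap (conjHom (D.φ v) H g) hc (M := Rep.trivial (ZMod p) H (ZMod p))
        (M' := Rep.trivial (ZMod p) (stabAt (D.φ v) H g) (ZMod p)) LinearMap.id
        (fun _ _ => rfl))) 2 x).2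
  rw [← h6, shaLocal_comp D.𝒰 (D.𝒰v v) (D.φ v) (D.cont v) H g hc]
  rw [(stmt_mapH (ZMod p) _ _ _ _ _ 2 x).2, h1, map_zero]

end Fermat.Agent.CFT.Num

end
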