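/-
TEAM CFT, layer [NUM], NUM-2: Shapiro for trivial coefficients.
-/
import Fermat.Agent.CFT.Num.Interface

set_option autoImplicit false

noncomputable section

namespace Fermat.Agent.CFT.Num

open Fermat.Agent.CFT.Top Cpx

theorem shapiro (h : Stmt_shapiroM) : Stmt_shapiro := by
  intro k _ G _ 𝒰 H hH n
  have hd : IsDisc 𝒰 (Rep.trivial k G k) := by
    intro m
    obtain ⟨U, hU⟩ := 𝒰.ne
    exact ⟨U, hU, fun _ _ => rfl⟩
  exact h k G 𝒰 H hH (Rep.trivial k G k) hd n

end Fermat.Agent.CFT.Num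

end
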