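/-
TEAM CFT -> S55, layer [NUM]: Shapiro's lemma for `Hlc` in the shapes of `Num/Interface.lean`,
from the Shapiro-Mackey theorem `Top.Stmt_shapiroLc` of the LC-toolkit (`Top/ToolSh*.lean`).
-/
import Fermat.Agent.CFT.Num.Interface
import Fermat.Agent.CFT.Top.ToolShapiroPerm

set_option autoImplicit false

noncomputable section

namespace Fermat.Agent.CFT.Num

open Fermat.Agent.CFT.Top Cpx Module ExtCitation

lemma ShapiroFin_shapM_eq {k : Type} [CommRing k] {G : Type} [Group G] (𝒰 : LevelSys G)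
    (H : Subgroup G) (M : Rep.{0} k G) : shapM 𝒰 H M = shQuot 𝒰 H M := rfl

lemma ShapiroFin_shap_eq (k : Type) [CommRing k] {G : Type} [Group G] (𝒰 : LevelSys G)
    (H : Subgroup G) : shap k 𝒰 H = shPerm k 𝒰 H := rfl

/-- N1 from the toolkit. -/
theorem shapiroM_of_lc (h : Top.Stmt_shapiroLc) : Stmt_shapiroM :=
  fun _ _ _ _ 𝒰 H hH M hM n => tool_shQuot_bijective h 𝒰 H hH M hM n

/-- N1' from the toolkit. -/
theorem shapiro_of_lc (h : Top.Stmt_shapiroLc) : Stmt_shapiro :=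
  fun k _ _ _ 𝒰 H hH n => tool_shPerm_bijective h k 𝒰 H hH n

end Fermat.Agent.CFT.Num

end
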