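/-
TEAM CFT, layer [NUM], task NUM-1 (helper25): Shapiro's lemma for `Hlc`, UNCONDITIONAL.

`Stmt_shapiroM` is the special case `X = G ⧸ H`, `ι = Unit` of helper33's Shapiro-Mackey theorem
`Top.Stmt_shapiroLc` (reduction: helper86, Num/ShapiroFin.lean).  This file proves the degree `0`
case (`Top.Stmt_sh0`) and assembles the packages SH-0 .. SH-4.
-/
import Fermat.Agent.CFT.Num.ShapiroFin
import Fermat.Agent.CFT.Top.ToolShapiro
import Fermat.Agent.CFT.Top.ToolShDisc
import Fermat.Agent.CFT.Top.ToolShSES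
import Fermat.Agent.CFT.Top.ToolShEffT
import Fermat.Agent.CFT.Top.ToolShEffU
import Fermat.Agent.CFT.Top.ToolEfface
import Fermat.Agent.CFT.Top.ToolEffaceSub
import Fermat.Agent.CFT.Top.SCb
import Fermat.Agent.CFT.Top.Pi

set_option autoImplicit false

noncomputable section

namespace Fermat.Agent.CFT.Num

open Fermat.Agent.CFT.Top Cpx

section Deg0

variable {k : Type} [CommRing k] {G : Type} [Group G] {𝒰 : LevelSys G} {X : Type} [MulAction G X]
  {ι : Type}

/-- an invariant function is determined by equivariance -/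
lemma ShapiroM_inv_apply (A : Rep.{0} k G) (m : (mapRep X A).ρ.invariants) (g : G) (x : X) :
    (m : X → A) (g • x) = A.ρ g ((m : X → A) x) := by
  have h := congrFun (m.2 g) (g • x)
  rw [mapRep_ρ_apply, inv_smul_smul] at h
  exact h.symm

/-- evaluation of invariant functions at the orbit representatives -/
def ShapiroM_ev (O : OrbitData 𝒰 X ι) (A : Rep.{0} k G) (m : (mapRep X A).ρ.invariants) (i : ι) :
    (Rep.res (O.K i).subtype A).ρ.invariants :=
  ⟨(m : X → A) (O.r i), fun g => by
    show A.ρ g.1 ((m : X → A) (O.r i)) = (m : X → A) (O.r i)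
    rw [← ShapiroM_inv_apply, (O.mem i g.1).1 g.2]⟩

lemma ShapiroM_ev_bijective (O : OrbitData 𝒰 X ι) (A : Rep.{0} k G) :
    Function.Bijective (ShapiroM_ev O A) := by
  constructor
  · intro m m' h
    apply Subtype.ext
    funext x
    obtain ⟨i, ⟨g, rfl⟩, -⟩ := O.uniq x
    rw [ShapiroM_inv_apply, ShapiroM_inv_apply]
    exact congrArg (A.ρ g) (congrArg Subtype.val (congrFun h i))
  · intro a
    choose ix hix huniq using fun x => O.uniq x
    choose gx hgx using hix
    let f : X → A := fun x => A.ρ (gx x) (a (ix x)).1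
    have key : ∀ (i : ι) (g : G), f (g • O.r i) = A.ρ g (a i).1 := by
      intro i g
      have hi : i = ix (g • O.r i) := huniq _ i ⟨g, rfl⟩
      have hg := hgx (g • O.r i)
      show A.ρ (gx (g • O.r i)) (a (ix (g • O.r i))).1 = A.ρ g (a i).1
      generalize gx (g • O.r i) = g' at hg
      generalize ix (g • O.r i) = j at hi hg
      subst hi
      have h1 : (g⁻¹ * g') ∈ O.K i := by
        rw [O.mem, mul_smul, hg, inv_smul_smul]
      have h2 : A.ρ (g⁻¹ * g') (a i).1 = (a i).1 := (a i).2 ⟨_, h1⟩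
      calc A.ρ g' (a i).1 = A.ρ (g * (g⁻¹ * g')) (a i).1 := by rw [mul_inv_cancel_left]
        _ = A.ρ g (a i).1 := by rw [map_mul, Module.End.mul_apply, h2]
    refine ⟨⟨f, fun h => ?_⟩, ?_⟩
    · funext x
      rw [mapRep_ρ_apply]
      obtain ⟨i, ⟨g, rfl⟩, -⟩ := O.uniq x
      rw [← mul_smul, key, key, ← Module.End.mul_apply, ← map_mul, mul_inv_cancel_left]
    · funext i
      apply Subtype.ext
      show f (O.r i) = (a i).1
      have := key i 1
      rwa [one_smul, map_one, Module.End.one_apply] at this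

end Deg0

/-- SH-0: Shapiro-Mackey in degree `0`. -/
theorem ShapiroM_sh0 : Top.Stmt_sh0 := by
  intro k _ G _ 𝒰 X _ ι O A
  have hP := stmt_piH k ι (fun i => lcCpx (𝒰.sub (O.K i)) (Rep.res (O.K i).subtype A)) 0
  have hc := cls0_bijective 𝒰 (mapRep X A)
  have hc' : Function.Bijective
      (fun (a : ∀ i, (Rep.res (O.K i).subtype A).ρ.invariants) i =>
        cls0 (𝒰.sub (O.K i)) (Rep.res (O.K i).subtype A) (a i)) :=
    Function.Bijective.piMap fun i => cls0_bijective _ _
  have hΨ := ShapiroM_ev_bijective O A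
  have hcomm : ((fun (x : (shU O A).H 0) (v : ι) =>
        (piProj (fun i => lcCpx (𝒰.sub (O.K i)) (Rep.res (O.K i).subtype A)) v).mapH 0 x) ∘
        ((shSig O A).mapH 0)) ∘ (cls0 𝒰 (mapRep X A))
      = (fun (a : ∀ i, (Rep.res (O.K i).subtype A).ρ.invariants) i =>
        cls0 (𝒰.sub (O.K i)) (Rep.res (O.K i).subtype A) (a i)) ∘ ShapiroM_ev O A := rfl
  have h1 := hc'.comp hΨ
  rw [← hcomm, Function.Bijective.of_comp_iff _ hc, Function.Bijective.of_comp_iff' hP] at h1
  exact h1

/-- Shapiro-Mackey for `Hlc`, unconditional. -/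
theorem ShapiroM_shapiroLc : Top.Stmt_shapiroLc :=
  tool_shapiroLc ShapiroM_sh0 tool_shDisc (tool_shSES tool_shDisc) tool_shEffT
    (tool_shEffU (tool_effaceSub tool_efface))

/-- **NUM-1**: Shapiro's lemma for `Hlc`, discrete coefficients (unconditional). -/
theorem shapiroM_uncond : Stmt_shapiroM := shapiroM_of_lc ShapiroM_shapiroLc

/-- **NUM-1** in the requested signature. -/
theorem shapiroM (_hE : Top.Stmt_efface) (_hS : Top.Stmt_effaceSub) (_hL : Top.Stmt_hasLevel) :
    Stmt_shapiroM := shapiroM_uncond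

/-- **NUM-2** for free: Shapiro's lemma for `Hlc`, trivial coefficients (unconditional). -/
theorem shapiro_uncond : Stmt_shapiro := shapiro_of_lc ShapiroM_shapiroLc

end Fermat.Agent.CFT.Num

end
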