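/-
TEAM CFT -> S55: Shapiro-Mackey for `Hlc` in degree `0` (`Top.Stmt_sh0`), and the unconditional
Shapiro statements of `Num/Interface.lean`.
-/
import Fermat.Agent.CFT.Num.ShapiroFin
import Fermat.Agent.CFT.Top.ToolShapiro
import Fermat.Agent.CFT.Top.ToolShDisc
import Fermat.Agent.CFT.Top.ToolShSES
import Fermat.Agent.CFT.Top.ToolShEffT
import Fermat.Agent.CFT.Top.ToolShEffU
import Fermat.Agent.CFT.Top.ToolEffaceSub
import Fermat.Agent.CFT.Top.ToolEfface
import Fermat.Agent.CFT.Top.SCb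

set_option autoImplicit false

noncomputable section

namespace Fermat.Agent.CFT.Num

open Fermat.Agent.CFT.Top Cpx Module ExtCitation

section

variable {k : Type} [CommRing k] {G : Type} [Group G] {𝒰 : LevelSys G} {X : Type} [MulAction G X]
  {ι : Type} (O : OrbitData 𝒰 X ι) (A : Rep.{0} k G)

lemma ShapiroZero_apply_smul (f : mapRep X A) (hf : f ∈ (mapRep X A).ρ.invariants) (g : G)
    (x : X) : f (g • x) = A.ρ g (f x) := by
  have h := congrFun (hf g) (g • x)
  rw [mapRep_ρ_apply, inv_smul_smul] at h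
  exact h.symm

/-- the components of the Shapiro map in degree `0`. -/
def ShapiroZero_lin : Hlc 𝒰 (mapRep X A) 0 →ₗ[k]
    ∀ i, Hlc (𝒰.sub (O.K i)) (Rep.res (O.K i).subtype A) 0 :=
  LinearMap.pi fun i => (evHom 𝒰 X A (O.r i) (O.K i) fun g hg => (O.mem i g).1 hg).mapH 0

lemma ShapiroZero_lin_cls0 (f : (mapRep X A).ρ.invariants) (i : ι)
    (h : f.1 (O.r i) ∈ (Rep.res (O.K i).subtype A).ρ.invariants) :
    ShapiroZero_lin O A (cls0 𝒰 _ f) i =
      cls0 (𝒰.sub (O.K i)) (Rep.res (O.K i).subtype A) ⟨f.1 (O.r i), h⟩ := rfl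

lemma ShapiroZero_mem (f : (mapRep X A).ρ.invariants) (i : ι) :
    f.1 (O.r i) ∈ (Rep.res (O.K i).subtype A).ρ.invariants := by
  intro κ
  show A.ρ κ.1 (f.1 (O.r i)) = f.1 (O.r i)
  rw [← ShapiroZero_apply_smul A f.1 f.2, (O.mem i κ.1).1 κ.2]

lemma ShapiroZero_lin_bijective : Function.Bijective (ShapiroZero_lin O A) := by
  classical
  constructor
  · rw [injective_iff_map_eq_zero]
    intro x hx
    obtain ⟨f, rfl⟩ := (cls0_bijective 𝒰 (mapRep X A)).2 x
    have h0 : ∀ i, f.1 (O.r i) = 0 := by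
      intro i
      have h1 := congrFun hx i
      rw [ShapiroZero_lin_cls0 O A f i (ShapiroZero_mem O A f i)] at h1
      have h2 := (cls0_bijective _ _).1 (h1.trans (map_zero (cls0 _ _)).symm)
      exact congrArg Subtype.val h2
    have hf : f = 0 := by
      apply Subtype.ext
      funext x
      obtain ⟨i, ⟨g, rfl⟩, -⟩ := O.uniq x
      rw [ShapiroZero_apply_smul A f.1 f.2, h0, map_zero]
      rfl
    rw [hf, map_zero]
  · intro y
    choose a ha using fun i => (cls0_bijective _ _).2 (y i)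
    let a' : ι → A := fun i => (a i).1
    have ha' : ∀ i, ∀ κ ∈ O.K i, A.ρ κ (a' i) = a' i := fun i κ hκ => (a i).2 ⟨κ, hκ⟩
    have key : ∀ i (g g' : G), g • O.r i = g' • O.r i → A.ρ g (a' i) = A.ρ g' (a' i) := by
      intro i g g' h
      have h1 : g'⁻¹ * g ∈ O.K i := by
        rw [O.mem, mul_smul, h, inv_smul_smul]
      have h2 := ha' i _ h1
      have h3 : g = g' * (g'⁻¹ * g) := by group
      rw [h3, map_mul, Module.End.mul_apply, h2]
    choose ich hich huniq using fun x => O.uniq x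
    choose gch hgch using hich
    let f : X → A := fun x => A.ρ (gch x) (a' (ich x))
    have hf : ∀ i g, f (g • O.r i) = A.ρ g (a' i) := by
      intro i g
      have hj : ich (g • O.r i) = i := (huniq (g • O.r i) i ⟨g, rfl⟩).symm
      have spec := hgch (g • O.r i)
      show A.ρ (gch (g • O.r i)) (a' (ich (g • O.r i))) = A.ρ g (a' i)
      rw [hj] at spec ⊢
      exact key i _ _ spec
    have hinv : f ∈ (mapRep X A).ρ.invariants := by
      intro h
      funext x
      obtain ⟨i, ⟨g, rfl⟩, -⟩ := O.uniq x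
      rw [mapRep_ρ_apply, ← mul_smul, hf, hf, ← Module.End.mul_apply, ← map_mul,
        mul_inv_cancel_left]
    refine ⟨cls0 𝒰 _ ⟨f, hinv⟩, ?_⟩
    funext i
    rw [ShapiroZero_lin_cls0 O A ⟨f, hinv⟩ i (ShapiroZero_mem O A ⟨f, hinv⟩ i), ← ha i]
    congr 1
    apply Subtype.ext
    show f (O.r i) = a' i
    have := hf i 1
    rwa [one_smul, map_one, Module.End.one_apply] at this

end

/-- SH-0. -/
theorem ShapiroZero_sh0 : Top.Stmt_sh0 := by
  intro k _ G _ 𝒰 X _ ι O A
  have h2 := stmt_piH k ι (fun i => lcCpx (𝒰.sub (O.K i)) (Rep.res (O.K i).subtype A)) 0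
  have h3 : (fun (x : (shU O A).H 0) (v : ι) =>
      (piProj (fun i => lcCpx (𝒰.sub (O.K i)) (Rep.res (O.K i).subtype A)) v).mapH 0 x) ∘
      ((shSig O A).mapH 0) = ShapiroZero_lin O A := by
    funext x
    obtain ⟨z, rfl⟩ := (shT 𝒰 X A).cls_surjective 0 x
    rfl
  have h4 := ShapiroZero_lin_bijective O A
  rw [← h3] at h4
  exact (Function.Bijective.of_comp_iff' h2 _).1 h4

/-- **Shapiro-Mackey for `Hlc`**, unconditional. -/
theorem shapiroLc : Top.Stmt_shapiroLc :=
  tool_shapiroLc ShapiroZero_sh0 tool_shDisc (tool_shSES tool_shDisc) tool_shEffT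
    (tool_shEffU (tool_effaceSub tool_efface))

/-- N1, unconditional. -/
theorem shapiroM' : Stmt_shapiroM := shapiroM_of_lc shapiroLc

/-- N1', unconditional. -/
theorem shapiro' : Stmt_shapiro := shapiro_of_lc shapiroLc

end Fermat.Agent.CFT.Num

end
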