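/-
TEAM CFT -> S55, layer [NUM], task NUM-3 (helper47): stabilisers, double cosets.
-/
import Fermat.Agent.CFT.Num.Interface

set_option autoImplicit false

noncomputable section

namespace Fermat.Agent.CFT.Num

open Fermat.Agent.CFT.Top

section

variable {G Γ : Type} [Group G] [Group Γ]

theorem Stab_finite_DC (φ : Γ →* G) (H : Subgroup G) [H.FiniteIndex] : Finite (DC φ H) := by
  refine Finite.of_surjective
    (fun x : G ⧸ H => (DoubleCoset.mk φ.range H (Quotient.out x) : DC φ H)) ?_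
  intro y
  refine ⟨((Quotient.out y : G) : G ⧸ H), ?_⟩
  have h1 : ((Quotient.out ((Quotient.out y : G) : G ⧸ H) : G) : G ⧸ H) = ((Quotient.out y : G) : G ⧸ H) :=
    Quotient.out_eq' _
  have h2 := QuotientGroup.eq.1 h1
  have h3 : DoubleCoset.mk φ.range H (Quotient.out ((Quotient.out y : G) : G ⧸ H))
      = DoubleCoset.mk φ.range H (Quotient.out y) := by
    rw [DoubleCoset.eq]
    exact ⟨1, one_mem _, _, h2, by group⟩
  show DoubleCoset.mk φ.range H (Quotient.out ((Quotient.out y : G) : G ⧸ H)) = y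
  rw [h3]
  exact DoubleCoset.out_eq' _ _ y

/-- the orbit map `Γ / Stab(g) → G / H`, `γ ↦ φ(γ) g H`. -/
def Stab_orbMap (φ : Γ →* G) (H : Subgroup G) (g : G) : Γ ⧸ stabAt φ H g → G ⧸ H :=
  Quotient.lift (fun γ : Γ => ((φ γ * g : G) : G ⧸ H)) (by
    intro a b hab
    have h1 : a⁻¹ * b ∈ stabAt φ H g := QuotientGroup.leftRel_apply.1 hab
    rw [mem_stabAt] at h1
    show ((φ a * g : G) : G ⧸ H) = ((φ b * g : G) : G ⧸ H)
    rw [QuotientGroup.eq]
    have : (φ a * g)⁻¹ * (φ b * g) = g⁻¹ * φ (a⁻¹ * b) * g := by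
      rw [map_mul, map_inv]; group
    rw [this]
    exact h1)

theorem Stab_orbMap_mk (φ : Γ →* G) (H : Subgroup G) (g : G) (γ : Γ) :
    Stab_orbMap φ H g (γ : Γ ⧸ stabAt φ H g) = ((φ γ * g : G) : G ⧸ H) := rfl

/-- `G/H` is the disjoint union of the `Γ`-orbits. -/
def Stab_total (φ : Γ →* G) (H : Subgroup G) :
    (Σ x : DC φ H, Γ ⧸ stabAt φ H (Quotient.out x)) → G ⧸ H :=
  fun y => Stab_orbMap φ H (Quotient.out y.1) y.2

theorem Stab_total_bijective (φ : Γ →* G) (H : Subgroup G) :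
    Function.Bijective (Stab_total φ H) := by
  constructor
  · rintro ⟨x, a⟩ ⟨y, b⟩ hab
    obtain ⟨a, rfl⟩ := QuotientGroup.mk_surjective a
    obtain ⟨b, rfl⟩ := QuotientGroup.mk_surjective b
    have h1 : ((φ a * Quotient.out x : G) : G ⧸ H) = ((φ b * Quotient.out y : G) : G ⧸ H) := hab
    rw [QuotientGroup.eq] at h1
    have hxy : x = y := by
      rw [← DoubleCoset.out_eq' _ _ x, ← DoubleCoset.out_eq' _ _ y, DoubleCoset.eq]
      refine ⟨φ (b⁻¹ * a), ⟨_, rfl⟩, _, h1, ?_⟩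
      rw [map_mul, map_inv]
      group
    subst hxy
    congr 1
    rw [QuotientGroup.eq, mem_stabAt]
    have : (φ a * Quotient.out x)⁻¹ * (φ b * Quotient.out x)
        = (Quotient.out x)⁻¹ * φ (a⁻¹ * b) * Quotient.out x := by
      rw [map_mul, map_inv]; group
    rw [← this]
    exact h1
  · intro z
    obtain ⟨g, rfl⟩ := QuotientGroup.mk_surjective z
    obtain ⟨h, k, ⟨γ, rfl⟩, hk, hout⟩ := DoubleCoset.mk_out_eq_mul φ.range H g
    refine ⟨⟨DoubleCoset.mk φ.range H g, ((γ⁻¹ : Γ) : Γ ⧸ _)⟩, ?_⟩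
    show ((φ γ⁻¹ * Quotient.out (DoubleCoset.mk φ.range H g) : G) : G ⧸ H) = (g : G ⧸ H)
    rw [hout, QuotientGroup.eq]
    have : (φ γ⁻¹ * (φ γ * g * k))⁻¹ * g = k⁻¹ := by
      rw [map_inv]; group
    rw [this]
    exact inv_mem hk

end

theorem stabOpen : Stmt_stabOpen := by
  intro G Γ _ _ 𝒰 𝒱 φ hφ H hH g
  obtain ⟨U, hU, hUH⟩ := hH
  have hconj : ∀ U' ∈ 𝒰.S, ∀ u ∈ U', g⁻¹ * u * g ∈ U' := by
    intro U' hU' u hu
    have := (𝒰.normal U' hU').conj_mem u hu g⁻¹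
    simpa using this
  refine ⟨?_, ?_, ?_⟩
  · obtain ⟨V, hV, hVU⟩ := hφ U hU
    refine ⟨V, hV, fun v hv => ?_⟩
    rw [mem_stabAt]
    exact hUH (hconj U hU _ (hVU hv))
  · rintro _ ⟨U', hU', rfl⟩
    obtain ⟨V, hV, hVU⟩ := hφ U' hU'
    refine ⟨_, ⟨V, hV, rfl⟩, fun γ hγ => ?_⟩
    rw [Subgroup.mem_comap, Subgroup.mem_comap, Subgroup.coe_subtype, conjHom_coe]
    exact hconj U' hU' _ (hVU hγ)
  · have := 𝒰.fin U hU
    have : H.FiniteIndex := Subgroup.finiteIndex_of_le hUH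
    exact Stab_finite_DC φ H

theorem orbitSum : Stmt_orbitSum := by
  intro G Γ _ _ φ H hH
  have hfin := Stab_finite_DC φ H
  have := Fintype.ofFinite (DC φ H)
  have e := Equiv.ofBijective _ (Stab_total_bijective φ H)
  have hfinS : Finite (Σ x : DC φ H, Γ ⧸ stabAt φ H (Quotient.out x)) := Finite.of_equiv _ e.symm
  have hfib : ∀ x : DC φ H, Finite (Γ ⧸ stabAt φ H (Quotient.out x)) := fun x =>
    Finite.of_injective (fun a => (⟨x, a⟩ : Σ x : DC φ H, Γ ⧸ stabAt φ H (Quotient.out x)))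
      (fun a b hab => by
        have := (Sigma.mk.inj_iff.1 hab).2
        exact eq_of_heq this)
  rw [finsum_eq_sum_of_fintype, Subgroup.index, ← Nat.card_congr e, Nat.card_sigma]
  rfl

end Fermat.Agent.CFT.Num

end
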